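import Fermat.Agent.S55.G.Rec.Loc.Spec
import Fermat.Agent.S55.Bridge.Krasner

/-!
# S55 / layer G / block REC / sub-block LOC : leaves LOC-FD and LOC-DESC (helper894)

* `openSpec : OpenSpec` — the fixed field of an open subgroup `V ≤ Gal(ℚ̄_q/ℚ_q)` is finite over
  `ℚ_q` and `V` is the full fixing subgroup of its fixed field (infinite Galois theory).
* `resHom_surjective` — restriction `V → Gal(E/K_V)` is surjective for `V` open.
* `descent : DescentSpec` — every level cocycle on an open `V` is the inflation of a cocycle of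
  a finite Galois level `E/K_V`, which can be chosen above any finite `E₀/K_V`.
-/

set_option autoImplicit false

noncomputable section

namespace Fermat.Agent.S55.G.Rec.Loc.H894

open groupCohomology IntermediateField

variable (q : ℕ) [Fact q.Prime]

local notation "Ω" => PadicAlgCl q
local notation "Gq" => (PadicAlgCl q ≃ₐ[ℚ_[q]] PadicAlgCl q)

/-- An open subgroup is the full fixing subgroup of its fixed field. -/
lemma fixingSubgroup_fixedFld (V : Subgroup Gq) (hV : IsOpenL q V) :
    (fixedFld q V).fixingSubgroup = V := by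
  obtain ⟨E, hE, hEV⟩ := hV
  have := hE
  have hopen : IsOpen (V : Set Gq) := Subgroup.isOpen_mono hEV E.fixingSubgroup_isOpen
  have hclosed : IsClosed (V : Set Gq) := Subgroup.isClosed_of_isOpen V hopen
  exact InfiniteGalois.fixingSubgroup_fixedField ⟨V, hclosed⟩

/-- The fixed field of an open subgroup is finite over `ℚ_q`. -/
lemma finiteDimensional_fixedFld (V : Subgroup Gq) (hV : IsOpenL q V) :
    FiniteDimensional ℚ_[q] (fixedFld q V) := by
  obtain ⟨E, hE, hEV⟩ := hV
  have := hE
  have hle : fixedFld q V ≤ E := by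
    have h := IntermediateField.fixedField_antitone hEV
    rwa [InfiniteGalois.fixedField_fixingSubgroup] at h
  exact Module.Finite.of_injective (IntermediateField.inclusion hle).toLinearMap
    (IntermediateField.inclusion_injective hle)

/-- **LOC-FD**. -/
theorem openSpec : OpenSpec := fun q _ V hV =>
  ⟨finiteDimensional_fixedFld q V hV, fixingSubgroup_fixedFld q V hV⟩

/-- `V → Gal(ℚ̄_q/K_V)` is surjective for `V` open. -/
lemma toAbsGal_surjective (V : Subgroup Gq) (hV : IsOpenL q V) :
    Function.Surjective (toAbsGal q V) := by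
  intro τ
  have hmem : (((fixingSubgroupEquiv (fixedFld q V)).symm τ : (fixedFld q V).fixingSubgroup) : Gq)
      ∈ V := by
    exact (fixingSubgroup_fixedFld q V hV).le ((fixingSubgroupEquiv (fixedFld q V)).symm τ).2
  refine ⟨⟨_, hmem⟩, ?_⟩
  ext x
  rw [toAbsGal_apply]
  rfl

/-- Restriction `V → Gal(E/K_V)` is surjective for `V` open. -/
lemma resHom_surjective (V : Subgroup Gq) (hV : IsOpenL q V)
    (E : IntermediateField (fixedFld q V) Ω) [Normal (fixedFld q V) E] :
    Function.Surjective (resHom q V E) := by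
  intro σ
  obtain ⟨τ, hτ⟩ := AlgEquiv.restrictNormalHom_surjective Ω σ
  obtain ⟨g, hg⟩ := toAbsGal_surjective q V hV τ
  exact ⟨g, by rw [← hτ, ← hg]; rfl⟩

/-- Elements of the kernel of `resHom` fix every element of `E`. -/
lemma apply_eq_of_resHom_eq_one (V : Subgroup Gq)
    (E : IntermediateField (fixedFld q V) Ω) [Normal (fixedFld q V) E] (s : ↥V)
    (hs : resHom q V E s = 1) (x : Ω) (hx : x ∈ E) : (s : Gq) x = x := by
  have h := resHom_apply_coe q V E s ⟨x, hx⟩
  rw [hs] at h
  exact h.symm

/-- A unit of `ℚ̄_q` lying in `E`, as a unit of `E`. -/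
def unitOfMem (V : Subgroup Gq) (E : IntermediateField (fixedFld q V) Ω) (u : Ωˣ)
    (hu : (u : Ω) ∈ E) : (↥E)ˣ :=
  Units.mk0 ⟨u, hu⟩ (fun h => u.ne_zero (congrArg Subtype.val h))

@[simp] lemma unitsIncl_unitOfMem (V : Subgroup Gq) (E : IntermediateField (fixedFld q V) Ω)
    (u : Ωˣ) (hu : (u : Ω) ∈ E) : unitsIncl q V E (unitOfMem q V E u hu) = u :=
  Units.ext rfl

lemma unitsIncl_injective (V : Subgroup Gq) (E : IntermediateField (fixedFld q V) Ω) :
    Function.Injective (unitsIncl q V E) :=
  Units.map_injective (algebraMap E Ω).injective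

/-- `unitsIncl` as an additive map between the two modules. -/
def addIncl (V : Subgroup Gq) (E : IntermediateField (fixedFld q V) Ω) :
    L.unitsRep (fixedFld q V) E →+ lModOn q V where
  toFun a := Additive.ofMul (unitsIncl q V E (Additive.toMul a))
  map_zero' := congrArg Additive.ofMul (map_one (unitsIncl q V E))
  map_add' a b := congrArg Additive.ofMul
    (map_mul (unitsIncl q V E) (Additive.toMul a : (↥E)ˣ) (Additive.toMul b : (↥E)ˣ))

lemma addIncl_apply (V : Subgroup Gq) (E : IntermediateField (fixedFld q V) Ω)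
    (a : L.unitsRep (fixedFld q V) E) :
    addIncl q V E a = Additive.ofMul (unitsIncl q V E (Additive.toMul a)) := rfl

lemma addIncl_injective (V : Subgroup Gq) (E : IntermediateField (fixedFld q V) Ω) :
    Function.Injective (addIncl q V E) := by
  intro a b h
  rw [addIncl_apply, addIncl_apply] at h
  exact Additive.toMul.injective (unitsIncl_injective q V E (Additive.ofMul.injective h))

/-- `addIncl` intertwines the actions of `Gal(E/K_V)` and `V`. -/
lemma addIncl_ρ (V : Subgroup Gq) (E : IntermediateField (fixedFld q V) Ω)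
    [Normal (fixedFld q V) E] (g : ↥V) (a : L.unitsRep (fixedFld q V) E) :
    addIncl q V E ((L.unitsRep (fixedFld q V) E).ρ (resHom q V E g) a) =
      (lModOn q V).ρ g (addIncl q V E a) := by
  rw [addIncl_apply, addIncl_apply]
  refine congrArg Additive.ofMul (Units.ext ?_)
  exact resHom_apply_coe q V E g ((Additive.toMul a : (↥E)ˣ) : E)

/-- A set-theoretic section of `resHom`. -/
lemma exists_section (V : Subgroup Gq) (hV : IsOpenL q V)
    (E : IntermediateField (fixedFld q V) Ω) [Normal (fixedFld q V) E] :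
    ∃ lift : (E ≃ₐ[fixedFld q V] E) → ↥V, ∀ σ, resHom q V E (lift σ) = σ :=
  ⟨fun σ => (resHom_surjective q V hV E σ).choose,
    fun σ => (resHom_surjective q V hV E σ).choose_spec⟩

/-- A cochain right-invariant under `ker (resHom E)` factors through `Gal(E/K_V)²`. -/
lemma factor_of_invariant {X : Type*} (V : Subgroup Gq)
    (E : IntermediateField (fixedFld q V) Ω) [Normal (fixedFld q V) E] (c : ↥V × ↥V → X)
    (h1 : ∀ g g' s s' : ↥V, resHom q V E s = 1 → resHom q V E s' = 1 →
      c (g * s, g' * s') = c (g, g'))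
    (lift : (E ≃ₐ[fixedFld q V] E) → ↥V) (hlift : ∀ σ, resHom q V E (lift σ) = σ)
    (g g' : ↥V) : c (g, g') = c (lift (resHom q V E g), lift (resHom q V E g')) := by
  have h := h1 (lift (resHom q V E g)) (lift (resHom q V E g'))
    ((lift (resHom q V E g))⁻¹ * g) ((lift (resHom q V E g'))⁻¹ * g')
    (by rw [map_mul, map_inv, hlift, inv_mul_cancel])
    (by rw [map_mul, map_inv, hlift, inv_mul_cancel])
  rw [mul_inv_cancel_left, mul_inv_cancel_left] at h
  exact h

/-- An invariant cochain takes finitely many values. -/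
lemma finite_range_of_invariant {X : Type*} (V : Subgroup Gq) (hV : IsOpenL q V)
    (E : IntermediateField (fixedFld q V) Ω) [FiniteDimensional (fixedFld q V) E]
    [Normal (fixedFld q V) E] (c : ↥V × ↥V → X)
    (h1 : ∀ g g' s s' : ↥V, resHom q V E s = 1 → resHom q V E s' = 1 →
      c (g * s, g' * s') = c (g, g')) :
    (Set.range c).Finite := by
  obtain ⟨lift, hlift⟩ := exists_section q V hV E
  refine Set.Finite.subset (Set.finite_range
    (fun p : (E ≃ₐ[fixedFld q V] E) × (E ≃ₐ[fixedFld q V] E) => c (lift p.1, lift p.2))) ?_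
  rintro _ ⟨⟨g, g'⟩, rfl⟩
  exact ⟨(resHom q V E g, resHom q V E g'),
    (factor_of_invariant q V E c h1 lift hlift g g').symm⟩

/-- Core of the descent: a level cocycle on `V` which is right-invariant under `ker (resHom E)`
and whose values lie in `E` is the inflation of a cocycle of `Gal(E/K_V)`. -/
theorem exists_cocycle_of_invariant (V : Subgroup Gq) (hV : IsOpenL q V)
    (c : ↥(levelCocycles₂ (lHom q V) (lModOn q V)))
    (E : IntermediateField (fixedFld q V) Ω) [FiniteDimensional (fixedFld q V) E]
    [IsGalois (fixedFld q V) E]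
    (h1 : ∀ g g' s s' : ↥V, resHom q V E s = 1 → resHom q V E s' = 1 →
      (c : ↥V × ↥V → lModOn q V) (g * s, g' * s') = (c : ↥V × ↥V → lModOn q V) (g, g'))
    (h2 : ∀ g g' : ↥V,
      ((Additive.toMul ((c : ↥V × ↥V → lModOn q V) (g, g')) : Ωˣ) : Ω) ∈ E) :
    ∃ f : cocycles₂ (L.unitsRep (fixedFld q V) E), IsAbsInflation q V E f c := by
  obtain ⟨lift, hlift⟩ := exists_section q V hV E
  have hsurj := resHom_surjective q V hV E
  obtain ⟨f, hfdef⟩ : ∃ f : (E ≃ₐ[fixedFld q V] E) × (E ≃ₐ[fixedFld q V] E) →
      L.unitsRep (fixedFld q V) E, ∀ p, addIncl q V E (f p) =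
        (c : ↥V × ↥V → lModOn q V) (lift p.1, lift p.2) :=
    ⟨fun p => Additive.ofMul (unitOfMem q V E
      (Additive.toMul ((c : ↥V × ↥V → lModOn q V) (lift p.1, lift p.2))) (h2 _ _)),
      fun p => congrArg Additive.ofMul (unitsIncl_unitOfMem q V E _ _)⟩
  have hinf : ∀ g g' : ↥V, (c : ↥V × ↥V → lModOn q V) (g, g') =
      addIncl q V E (f (resHom q V E g, resHom q V E g')) := by
    intro g g'
    rw [factor_of_invariant q V E _ h1 lift hlift g g', hfdef]
  have hf : f ∈ cocycles₂ (L.unitsRep (fixedFld q V) E) := by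
    rw [mem_cocycles₂_iff]
    intro σ τ υ
    obtain ⟨g, rfl⟩ := hsurj σ
    obtain ⟨h, rfl⟩ := hsurj τ
    obtain ⟨j, rfl⟩ := hsurj υ
    have hc : (c : ↥V × ↥V → lModOn q V) (g * h, j) + (c : ↥V × ↥V → lModOn q V) (g, h) =
        (lModOn q V).ρ g ((c : ↥V × ↥V → lModOn q V) (h, j)) +
          (c : ↥V × ↥V → lModOn q V) (g, h * j) :=
      (mem_cocycles₂_iff _).1 c.2.1 g h j
    apply addIncl_injective q V E
    calc addIncl q V E (f (resHom q V E g * resHom q V E h, resHom q V E j) +
          f (resHom q V E g, resHom q V E h))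
        = addIncl q V E (f (resHom q V E (g * h), resHom q V E j)) +
          addIncl q V E (f (resHom q V E g, resHom q V E h)) := by
          exact ((addIncl q V E).map_add _ _).trans
            (congrArg (fun t => addIncl q V E (f (t, resHom q V E j)) +
              addIncl q V E (f (resHom q V E g, resHom q V E h)))
              (map_mul (resHom q V E) g h).symm)
      _ = (c : ↥V × ↥V → lModOn q V) (g * h, j) + (c : ↥V × ↥V → lModOn q V) (g, h) := by
          exact congrArg₂ (· + ·) (hinf (g * h) j).symm (hinf g h).symm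
      _ = (lModOn q V).ρ g ((c : ↥V × ↥V → lModOn q V) (h, j)) +
          (c : ↥V × ↥V → lModOn q V) (g, h * j) := hc
      _ = (lModOn q V).ρ g (addIncl q V E (f (resHom q V E h, resHom q V E j))) +
          addIncl q V E (f (resHom q V E g, resHom q V E (h * j))) := by
          exact congrArg₂ (· + ·) (congrArg ((lModOn q V).ρ g) (hinf h j)) (hinf g (h * j))
      _ = addIncl q V E ((L.unitsRep (fixedFld q V) E).ρ (resHom q V E g)
            (f (resHom q V E h, resHom q V E j)) +
          f (resHom q V E g, resHom q V E h * resHom q V E j)) := by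
          exact (congrArg₂ (· + ·) (addIncl_ρ q V E g _).symm
            (congrArg (fun t => addIncl q V E (f (resHom q V E g, t)))
              (map_mul (resHom q V E) h j))).trans ((addIncl q V E).map_add _ _).symm
  exact ⟨⟨f, hf⟩, funext fun p => hinf p.1 p.2⟩

/-- The compositum `E₁ · K_V` as an intermediate field over `K_V`. -/
def liftFld (V : Subgroup Gq) (E₁ : IntermediateField ℚ_[q] Ω) :
    IntermediateField (fixedFld q V) Ω :=
  IntermediateField.extendScalars (le_sup_right : fixedFld q V ≤ E₁ ⊔ fixedFld q V)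

lemma le_liftFld (V : Subgroup Gq) (E₁ : IntermediateField ℚ_[q] Ω) (x : Ω) (hx : x ∈ E₁) :
    x ∈ liftFld q V E₁ :=
  (le_sup_left : E₁ ≤ E₁ ⊔ fixedFld q V) hx

lemma finiteDimensional_liftFld (V : Subgroup Gq) (hV : IsOpenL q V)
    (E₁ : IntermediateField ℚ_[q] Ω) [FiniteDimensional ℚ_[q] E₁] :
    FiniteDimensional (fixedFld q V) (liftFld q V E₁) := by
  have := finiteDimensional_fixedFld q V hV
  have h : FiniteDimensional ℚ_[q] ↥(E₁ ⊔ fixedFld q V) :=
    IntermediateField.finiteDimensional_sup E₁ (fixedFld q V)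
  have h' : FiniteDimensional ℚ_[q] ↥(liftFld q V E₁) := h
  exact Module.Finite.of_restrictScalars_finite ℚ_[q] (fixedFld q V) (liftFld q V E₁)

/-- **LOC-DESC**, unbundled. -/
theorem descent_aux (V : Subgroup Gq) (hV : IsOpenL q V)
    (c : ↥(levelCocycles₂ (lHom q V) (lModOn q V)))
    (E₀ : IntermediateField (fixedFld q V) Ω) (hE₀ : FiniteDimensional (fixedFld q V) E₀) :
    ∃ (E : IntermediateField (fixedFld q V) Ω)
      (_ : FiniteDimensional (fixedFld q V) E) (_ : IsGalois (fixedFld q V) E)
      (f : cocycles₂ (L.unitsRep (fixedFld q V) E)), E₀ ≤ E ∧ IsAbsInflation q V E f c := by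
  obtain ⟨F, hF, hFc⟩ := c.2.2
  have := hF
  obtain ⟨E₁, hE₁, hE₁F⟩ := Bridge.exists_local_level_of_global q F
  have := hE₁
  have hM : FiniteDimensional (fixedFld q V) (liftFld q V E₁) :=
    finiteDimensional_liftFld q V hV E₁
  -- invariance under the kernel of `resHom E` for every normal `E` containing `E₁`
  have key : ∀ (E : IntermediateField (fixedFld q V) Ω) [Normal (fixedFld q V) E],
      liftFld q V E₁ ≤ E → ∀ g g' s s' : ↥V, resHom q V E s = 1 → resHom q V E s' = 1 →
        (c : ↥V × ↥V → lModOn q V) (g * s, g' * s') = (c : ↥V × ↥V → lModOn q V) (g, g') := by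
    intro E _ hME g g' s s' hs hs'
    refine hFc g g' s s' (hE₁F _ ?_) (hE₁F _ ?_)
    · rw [IntermediateField.mem_fixingSubgroup_iff]
      intro x hx
      exact apply_eq_of_resHom_eq_one q V E s hs x (hME (le_liftFld q V E₁ x hx))
    · rw [IntermediateField.mem_fixingSubgroup_iff]
      intro x hx
      exact apply_eq_of_resHom_eq_one q V E s' hs' x (hME (le_liftFld q V E₁ x hx))
  -- first stage: the values of `c` form a finite set
  have hfin : (Set.range fun p : ↥V × ↥V =>
      ((Additive.toMul ((c : ↥V × ↥V → lModOn q V) p) : Ωˣ) : Ω)).Finite :=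
    finite_range_of_invariant q V hV (normalClosure (fixedFld q V) (liftFld q V E₁) Ω) _
      (fun g g' s s' hs hs' => by
        rw [key _ (IntermediateField.le_normalClosure _) g g' s s' hs hs'])
  have hfin' := hfin.to_subtype
  have hS : FiniteDimensional (fixedFld q V)
      (IntermediateField.adjoin (fixedFld q V) (Set.range fun p : ↥V × ↥V =>
      ((Additive.toMul ((c : ↥V × ↥V → lModOn q V) p) : Ωˣ) : Ω))) :=
    IntermediateField.finiteDimensional_adjoin
      (fun x _ => Algebra.IsIntegral.isIntegral x)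
  -- second stage
  obtain ⟨X, hXfd, hX0, hX1, hXv⟩ : ∃ X : IntermediateField (fixedFld q V) Ω,
      FiniteDimensional (fixedFld q V) X ∧ E₀ ≤ X ∧ liftFld q V E₁ ≤ X ∧
        ∀ g g' : ↥V, ((Additive.toMul ((c : ↥V × ↥V → lModOn q V) (g, g')) : Ωˣ) : Ω) ∈ X :=
    ⟨E₀ ⊔ liftFld q V E₁ ⊔
      IntermediateField.adjoin (fixedFld q V) (Set.range fun p : ↥V × ↥V =>
      ((Additive.toMul ((c : ↥V × ↥V → lModOn q V) p) : Ωˣ) : Ω)),
      IntermediateField.finiteDimensional_sup _ _, le_sup_left.trans le_sup_left,
      le_sup_right.trans le_sup_left,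
      fun g g' => (le_sup_right (α := IntermediateField (fixedFld q V) Ω))
        (IntermediateField.subset_adjoin _ _ ⟨(g, g'), rfl⟩)⟩
  have hle := IntermediateField.le_normalClosure X
  have hfdE : FiniteDimensional (fixedFld q V) (normalClosure (fixedFld q V) X Ω) :=
    normalClosure.is_finiteDimensional _ _ _
  have hnE : Normal (fixedFld q V) (normalClosure (fixedFld q V) X Ω) :=
    normalClosure.normal _ _ _
  have hgE : IsGalois (fixedFld q V) (normalClosure (fixedFld q V) X Ω) := ⟨⟩
  obtain ⟨f, hf⟩ := exists_cocycle_of_invariant q V hV c (normalClosure (fixedFld q V) X Ω)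
    (key _ (hX1.trans hle)) (fun g g' => hle (hXv g g'))
  exact ⟨_, hfdE, hgE, f, hX0.trans hle, hf⟩

/-- **LOC-DESC**. -/
theorem descent : DescentSpec := fun q _ V hV c E₀ hE₀ => descent_aux q V hV c E₀ hE₀

end Fermat.Agent.S55.G.Rec.Loc.H894
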