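import Fermat.Agent.S55.G.Rec.Loc.Spec

/-!
# S55 / G / REC / LOC : leaf LOC-FD (`OpenSpec`)  — helper478

The fixed field of an open subgroup `V ≤ Gal(ℚ̄_q/ℚ_q)` is finite over `ℚ_q`, and `V` is the full
fixing subgroup of its fixed field.  Both follow from Mathlib's infinite Galois correspondence:
`V` contains the open subgroup `G_E` (`E/ℚ_q` finite), hence is open, hence closed.
-/

set_option autoImplicit false

namespace Fermat.Agent.S55.G.Rec.Loc.H478

open IntermediateField

/-- **LOC-FD**. -/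
theorem openSpec : OpenSpec := by
  intro q _ V hV
  obtain ⟨E, hE, hEV⟩ := hV
  have : FiniteDimensional ℚ_[q] E := hE
  -- `V` is open, hence closed
  have hopen : IsOpen (V : Set (PadicAlgCl q ≃ₐ[ℚ_[q]] PadicAlgCl q)) :=
    Subgroup.isOpen_mono hEV (IntermediateField.fixingSubgroup_isOpen E)
  have hclosed : IsClosed (V : Set (PadicAlgCl q ≃ₐ[ℚ_[q]] PadicAlgCl q)) :=
    Subgroup.isClosed_of_isOpen V hopen
  have hfix : (fixedFld q V).fixingSubgroup = V :=
    InfiniteGalois.fixingSubgroup_fixedField ⟨V, hclosed⟩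
  refine ⟨?_, hfix⟩
  rw [← InfiniteGalois.isOpen_iff_finite, hfix]
  exact hopen

end Fermat.Agent.S55.G.Rec.Loc.H478
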