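import Fermat.Agent.S55.G.Rec.Loc.Spec
import Fermat.Agent.S55.L.Inv481.Towers
import Fermat.Agent.S55.Bridge.Krasner
import Fermat.Agent.S55.G.Rec.Loc.OpenH478

/-!
# S55 / G / REC / LOC : leaf LOC-DOWN (`DownSpec`) — helper363

Inflation from a finite Galois level `E / K_V` to the absolute level `V` is injective on classes:
if the level cocycle `c = Inf f` on `V` is the coboundary of a level-constant `1`-cochain `x`,
then `f` is a coboundary.

Proof.  `x` is right-invariant under `G_{E₁} ∩ V` for a finite `E₁ / ℚ_q` (Krasner bridge), hence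
takes finitely many values.  Let `N / K_V` be finite Galois containing `E`, `E₁` and the values of
`x`.  Then `x` descends to a `1`-cochain `b` of `Gal(N / K_V)` with values in `Nˣ`, and
`d b = Inf_{E → N} f`.  Inflation `H²(E / K_V) → H²(N / K_V)` is injective (Hilbert 90;
`L.Inv481.inflPair_pull_injective`), so `cls f = 0`.

Main results: `down_of : OpenSpec → DownSpec` and `down : DownSpec`.
-/

set_option autoImplicit false
set_option linter.style.haveILetI false
set_option linter.unusedSectionVars false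

noncomputable section

namespace Fermat.Agent.S55.G.Rec.Loc.H363

open groupCohomology IntermediateField

variable (q : ℕ) [Fact q.Prime]

/-- `V → Gal(ℚ̄_q / K_V)` is onto when `V` is the full fixing subgroup of its fixed field. -/
lemma toAbsGal_surjective (V : Subgroup (PadicAlgCl q ≃ₐ[ℚ_[q]] PadicAlgCl q))
    (hfix : (fixedFld q V).fixingSubgroup = V) : Function.Surjective (toAbsGal q V) := by
  intro σ
  have hτ : (((IntermediateField.fixingSubgroupEquiv (fixedFld q V)).symm σ :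
      ↥(fixedFld q V).fixingSubgroup) : PadicAlgCl q ≃ₐ[ℚ_[q]] PadicAlgCl q) ∈ V :=
    (le_of_eq hfix) ((IntermediateField.fixingSubgroupEquiv (fixedFld q V)).symm σ).2
  refine ⟨⟨_, hτ⟩, ?_⟩
  ext y
  rw [toAbsGal_apply]
  have h2 := congrArg (fun τ : PadicAlgCl q ≃ₐ[fixedFld q V] PadicAlgCl q => τ y)
    ((IntermediateField.fixingSubgroupEquiv (fixedFld q V)).apply_symm_apply σ)
  exact h2

/-- Restriction `V → Gal(N / K_V)` is onto when `V` is the full fixing subgroup. -/
lemma resHom_surjective (V : Subgroup (PadicAlgCl q ≃ₐ[ℚ_[q]] PadicAlgCl q))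
    (hfix : (fixedFld q V).fixingSubgroup = V)
    (N : IntermediateField (fixedFld q V) (PadicAlgCl q)) [Normal (fixedFld q V) N] :
    Function.Surjective (resHom q V N) := by
  intro σ
  obtain ⟨τ, hτ⟩ := AlgEquiv.restrictNormalHom_surjective (F := fixedFld q V) (K₁ := N)
    (PadicAlgCl q) σ
  obtain ⟨g, rfl⟩ := toAbsGal_surjective q V hfix τ
  exact ⟨g, hτ⟩

/-- A finite Galois level above `E`, a finite `E₁ / ℚ_q` and a finite set `T`. -/
lemma exists_galois_level (K : IntermediateField ℚ_[q] (PadicAlgCl q))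
    (E : IntermediateField K (PadicAlgCl q)) [FiniteDimensional K E]
    (E₁ : IntermediateField ℚ_[q] (PadicAlgCl q)) [FiniteDimensional ℚ_[q] E₁]
    (T : Set (PadicAlgCl q)) (hT : T.Finite) :
    ∃ N : IntermediateField K (PadicAlgCl q), FiniteDimensional K N ∧ IsGalois K N ∧ E ≤ N ∧
      (∀ y ∈ E₁, y ∈ N) ∧ ∀ t ∈ T, t ∈ N := by
  obtain ⟨α, hα⟩ := Field.exists_primitive_element ℚ_[q] E₁
  haveI hTfin : Finite ↑(insert (α : PadicAlgCl q) T) := (hT.insert _).to_subtype
  have hint : ∀ y ∈ insert (α : PadicAlgCl q) T, IsIntegral K y :=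
    fun y _ => Algebra.IsIntegral.isIntegral y
  haveI := IntermediateField.finiteDimensional_adjoin (K := K) hint
  haveI : FiniteDimensional K ↥(E ⊔ adjoin K (insert (α : PadicAlgCl q) T)) :=
    IntermediateField.finiteDimensional_sup _ _
  have hle : E ⊔ adjoin K (insert (α : PadicAlgCl q) T) ≤
      normalClosure K ↥(E ⊔ adjoin K (insert (α : PadicAlgCl q) T)) (PadicAlgCl q) :=
    IntermediateField.le_normalClosure _
  have hsub : ∀ t ∈ insert (α : PadicAlgCl q) T,
      t ∈ normalClosure K ↥(E ⊔ adjoin K (insert (α : PadicAlgCl q) T)) (PadicAlgCl q) :=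
    fun t ht => hle ((le_sup_right : adjoin K (insert (α : PadicAlgCl q) T) ≤ _)
      (IntermediateField.subset_adjoin K _ ht))
  refine ⟨normalClosure K ↥(E ⊔ adjoin K (insert (α : PadicAlgCl q) T)) (PadicAlgCl q),
    inferInstance, ⟨⟩, le_sup_left.trans hle, ?_, fun t ht => hsub t (Set.mem_insert_of_mem _ ht)⟩
  intro y hy
  have hy' : (⟨y, hy⟩ : E₁) ∈ IntermediateField.adjoin ℚ_[q] {α} := by rw [hα]; trivial
  have hyα : y ∈ IntermediateField.adjoin ℚ_[q] {(α : PadicAlgCl q)} := by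
    have h1 : IntermediateField.lift (IntermediateField.adjoin ℚ_[q] {α})
        = IntermediateField.adjoin ℚ_[q] {(α : PadicAlgCl q)} := by
      rw [IntermediateField.lift_adjoin, Set.image_singleton]
    rw [← h1]
    exact (IntermediateField.mem_lift (⟨y, hy⟩ : E₁)).2 hy'
  have hle2 : IntermediateField.adjoin ℚ_[q] {(α : PadicAlgCl q)} ≤
      (normalClosure K ↥(E ⊔ adjoin K (insert (α : PadicAlgCl q) T))
        (PadicAlgCl q)).restrictScalars ℚ_[q] := by
    rw [IntermediateField.adjoin_le_iff]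
    rintro z hz
    rw [Set.mem_singleton_iff] at hz
    subst hz
    exact hsub _ (Set.mem_insert _ _)
  exact hle2 hyα

/-- If `g, g' ∈ V` have the same restriction to a level `M ⊇ E₁`, then `g⁻¹ g'` fixes `E₁`. -/
lemma inv_mul_mem_fixingSubgroup (V : Subgroup (PadicAlgCl q ≃ₐ[ℚ_[q]] PadicAlgCl q))
    (M : IntermediateField (fixedFld q V) (PadicAlgCl q)) [Normal (fixedFld q V) M]
    (E₁ : IntermediateField ℚ_[q] (PadicAlgCl q)) (hM : ∀ y ∈ E₁, y ∈ M)
    (g g' : ↥V) (h : resHom q V M g = resHom q V M g') :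
    ((g⁻¹ * g' : ↥V) : PadicAlgCl q ≃ₐ[ℚ_[q]] PadicAlgCl q) ∈ E₁.fixingSubgroup := by
  rw [IntermediateField.mem_fixingSubgroup_iff]
  intro y hy
  have h1 := resHom_apply_coe q V M g ⟨y, hM y hy⟩
  have h2 := resHom_apply_coe q V M g' ⟨y, hM y hy⟩
  rw [h] at h1
  have h3 : (g : PadicAlgCl q ≃ₐ[ℚ_[q]] PadicAlgCl q) y =
      (g' : PadicAlgCl q ≃ₐ[ℚ_[q]] PadicAlgCl q) y := h1.symm.trans h2
  show (g : PadicAlgCl q ≃ₐ[ℚ_[q]] PadicAlgCl q)⁻¹
    ((g' : PadicAlgCl q ≃ₐ[ℚ_[q]] PadicAlgCl q) y) = y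
  rw [← h3]
  exact AlgEquiv.symm_apply_apply _ y

/-- The unit of an intermediate field with a given value. -/
def unitOfMem {K : Type} [Field K] [Algebra K (PadicAlgCl q)]
    (N : IntermediateField K (PadicAlgCl q)) (u : (PadicAlgCl q)ˣ)
    (h : (u : PadicAlgCl q) ∈ N) : (↥N)ˣ :=
  Units.mk0 ⟨(u : PadicAlgCl q), h⟩ (fun h0 => u.ne_zero (congrArg Subtype.val h0))

lemma unitsIncl_unitOfMem (V : Subgroup (PadicAlgCl q ≃ₐ[ℚ_[q]] PadicAlgCl q))
    (N : IntermediateField (fixedFld q V) (PadicAlgCl q)) (u : (PadicAlgCl q)ˣ)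
    (h : (u : PadicAlgCl q) ∈ N) : unitsIncl q V N (unitOfMem q N u h) = u := by
  apply Units.ext
  rfl

lemma unitsIncl_injective (V : Subgroup (PadicAlgCl q ≃ₐ[ℚ_[q]] PadicAlgCl q))
    (N : IntermediateField (fixedFld q V) (PadicAlgCl q)) :
    Function.Injective (unitsIncl q V N) := by
  intro a b hab
  apply Units.ext
  apply Subtype.ext
  exact congrArg (fun u : (PadicAlgCl q)ˣ => (u : PadicAlgCl q)) hab

/-- equivariance of the inclusion `Nˣ → ℚ̄_qˣ` -/
lemma unitsIncl_smul (V : Subgroup (PadicAlgCl q ≃ₐ[ℚ_[q]] PadicAlgCl q))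
    (N : IntermediateField (fixedFld q V) (PadicAlgCl q)) [Normal (fixedFld q V) N]
    (g : ↥V) (u : (↥N)ˣ) :
    ((unitsIncl q V N (Additive.toMul ((L.unitsRep (fixedFld q V) N).ρ (resHom q V N g)
        (Additive.ofMul u))) : (PadicAlgCl q)ˣ) : PadicAlgCl q) =
      (g : PadicAlgCl q ≃ₐ[ℚ_[q]] PadicAlgCl q) ((unitsIncl q V N u : (PadicAlgCl q)ˣ) :
        PadicAlgCl q) :=
  resHom_apply_coe q V N g (u : ↥N)

/-- The inclusion `Nˣ → ℚ̄_qˣ`, additively, between the Galois modules. -/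
def inclAdd (V : Subgroup (PadicAlgCl q ≃ₐ[ℚ_[q]] PadicAlgCl q))
    (N : IntermediateField (fixedFld q V) (PadicAlgCl q)) :
    L.unitsRep (fixedFld q V) N →+ lModOn q V :=
  (MonoidHom.toAdditive (unitsIncl q V N) : Additive (↥N)ˣ →+ Additive (PadicAlgCl q)ˣ)

lemma inclAdd_apply (V : Subgroup (PadicAlgCl q ≃ₐ[ℚ_[q]] PadicAlgCl q))
    (N : IntermediateField (fixedFld q V) (PadicAlgCl q)) (a : L.unitsRep (fixedFld q V) N) :
    inclAdd q V N a = Additive.ofMul (unitsIncl q V N (Additive.toMul a)) := rfl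

lemma inclAdd_injective (V : Subgroup (PadicAlgCl q ≃ₐ[ℚ_[q]] PadicAlgCl q))
    (N : IntermediateField (fixedFld q V) (PadicAlgCl q)) :
    Function.Injective (inclAdd q V N) := by
  intro a b hab
  apply Additive.toMul.injective
  apply unitsIncl_injective q V N
  exact congrArg Additive.toMul hab

lemma inclAdd_ρ (V : Subgroup (PadicAlgCl q ≃ₐ[ℚ_[q]] PadicAlgCl q))
    (N : IntermediateField (fixedFld q V) (PadicAlgCl q)) [Normal (fixedFld q V) N]
    (g : ↥V) (a : L.unitsRep (fixedFld q V) N) :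
    inclAdd q V N ((L.unitsRep (fixedFld q V) N).ρ (resHom q V N g) a) =
      (lModOn q V).ρ g (inclAdd q V N a) := by
  apply Additive.toMul.injective
  apply Units.ext
  exact resHom_apply_coe q V N g ((Additive.toMul a : (↥N)ˣ) : ↥N)

/-- compatibility of the restrictions `V → Gal(N/K_V) → Gal(E/K_V)` -/
lemma restrictNormalHom_resHom (V : Subgroup (PadicAlgCl q ≃ₐ[ℚ_[q]] PadicAlgCl q))
    (E N : IntermediateField (fixedFld q V) (PadicAlgCl q)) [Normal (fixedFld q V) E]
    [Normal (fixedFld q V) N] [Algebra ↥E ↥N] [IsScalarTower (fixedFld q V) ↥E ↥N]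
    (hι : ∀ y : ↥E, ((algebraMap ↥E ↥N y : ↥N) : PadicAlgCl q) = (y : PadicAlgCl q)) (g : ↥V) :
    AlgEquiv.restrictNormalHom (F := fixedFld q V) (K₁ := ↥N) ↥E (resHom q V N g) =
      resHom q V E g := by
  ext y
  have h1 : algebraMap ↥E ↥N ((AlgEquiv.restrictNormalHom (F := fixedFld q V) (K₁ := ↥N) ↥E
      (resHom q V N g)) y) = (resHom q V N g) (algebraMap ↥E ↥N y) :=
    AlgEquiv.restrictNormal_commutes (resHom q V N g) ↥E y
  have h2 : ((algebraMap ↥E ↥N ((AlgEquiv.restrictNormalHom (F := fixedFld q V) (K₁ := ↥N) ↥E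
      (resHom q V N g)) y) : ↥N) : PadicAlgCl q) =
      (((resHom q V N g) (algebraMap ↥E ↥N y) : ↥N) : PadicAlgCl q) := by rw [h1]
  rw [hι, resHom_apply_coe, hι] at h2
  exact h2.trans (resHom_apply_coe q V E g y).symm

/-- the inflation of `f` to `N`, pushed to `ℚ̄_qˣ`, is the absolute inflation of `f` -/
lemma inclAdd_pullCocycle (V : Subgroup (PadicAlgCl q ≃ₐ[ℚ_[q]] PadicAlgCl q))
    (E N : IntermediateField (fixedFld q V) (PadicAlgCl q)) [Normal (fixedFld q V) E]
    [Normal (fixedFld q V) N] [Algebra ↥E ↥N] [IsScalarTower (fixedFld q V) ↥E ↥N]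
    (hι : ∀ y : ↥E, ((algebraMap ↥E ↥N y : ↥N) : PadicAlgCl q) = (y : PadicAlgCl q))
    (f : cocycles₂ (L.unitsRep (fixedFld q V) E)) (g h : ↥V) :
    inclAdd q V N (((L.Inv481.inflPair (fixedFld q V) E N).pullCocycle f :
        (N ≃ₐ[fixedFld q V] N) × (N ≃ₐ[fixedFld q V] N) → L.unitsRep (fixedFld q V) N)
        (resHom q V N g, resHom q V N h)) =
      inflCochain₂ q V E (f : (E ≃ₐ[fixedFld q V] E) × (E ≃ₐ[fixedFld q V] E) →
        L.unitsRep (fixedFld q V) E) (g, h) := by
  rw [(L.Inv481.inflPair (fixedFld q V) E N).isPull_pullCocycle f (resHom q V N g)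
    (resHom q V N h)]
  have r1 : (L.Inv481.inflPair (fixedFld q V) E N).f (resHom q V N g) = resHom q V E g :=
    restrictNormalHom_resHom q V E N hι g
  have r2 : (L.Inv481.inflPair (fixedFld q V) E N).f (resHom q V N h) = resHom q V E h :=
    restrictNormalHom_resHom q V E N hι h
  rw [r1, r2]
  apply Additive.toMul.injective
  apply Units.ext
  exact hι _

/-- Descent of a level-constant `1`-cochain: if `x` only depends on the restriction to `N` and
takes values in `N`, it comes from a cochain of `Gal(N / K_V)`. -/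
lemma exists_descent (V : Subgroup (PadicAlgCl q ≃ₐ[ℚ_[q]] PadicAlgCl q))
    (hfix : (fixedFld q V).fixingSubgroup = V)
    (N : IntermediateField (fixedFld q V) (PadicAlgCl q)) [Normal (fixedFld q V) N]
    (x : ↥V → lModOn q V)
    (hdep : ∀ g g' : ↥V, resHom q V N g = resHom q V N g' → x g = x g')
    (hval : ∀ g : ↥V, ((Additive.toMul (x g) : (PadicAlgCl q)ˣ) : PadicAlgCl q) ∈ N) :
    ∃ b : (N ≃ₐ[fixedFld q V] N) → L.unitsRep (fixedFld q V) N,
      ∀ g : ↥V, inclAdd q V N (b (resHom q V N g)) = x g := by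
  have hsurj := resHom_surjective q V hfix N
  choose lift hlift using hsurj
  refine ⟨fun σ => Additive.ofMul (unitOfMem q N (Additive.toMul (x (lift σ))) (hval (lift σ))),
    fun g => ?_⟩
  show Additive.ofMul (unitsIncl q V N (unitOfMem q N _ _)) = _
  rw [unitsIncl_unitOfMem, hdep _ g (hlift _)]
  rfl

/-- If the absolute inflation of `f` is `d x` with `x` descending to the level `N ⊇ E`, then the
inflation of `f` to `N` is a coboundary. -/
lemma pullCocycle_mem_coboundaries₂ (V : Subgroup (PadicAlgCl q ≃ₐ[ℚ_[q]] PadicAlgCl q))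
    (hfix : (fixedFld q V).fixingSubgroup = V)
    (E N : IntermediateField (fixedFld q V) (PadicAlgCl q)) [Normal (fixedFld q V) E]
    [Normal (fixedFld q V) N] [Algebra ↥E ↥N] [IsScalarTower (fixedFld q V) ↥E ↥N]
    (hι : ∀ y : ↥E, ((algebraMap ↥E ↥N y : ↥N) : PadicAlgCl q) = (y : PadicAlgCl q))
    (f : cocycles₂ (L.unitsRep (fixedFld q V) E))
    (x : ↥V → lModOn q V)
    (hd : (d₁₂ (lModOn q V)).hom x = inflCochain₂ q V E
      (f : (E ≃ₐ[fixedFld q V] E) × (E ≃ₐ[fixedFld q V] E) → L.unitsRep (fixedFld q V) E))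
    (b : (N ≃ₐ[fixedFld q V] N) → L.unitsRep (fixedFld q V) N)
    (hb : ∀ g : ↥V, inclAdd q V N (b (resHom q V N g)) = x g) :
    ((L.Inv481.inflPair (fixedFld q V) E N).pullCocycle f :
        (N ≃ₐ[fixedFld q V] N) × (N ≃ₐ[fixedFld q V] N) → L.unitsRep (fixedFld q V) N) ∈
      coboundaries₂ (L.unitsRep (fixedFld q V) N) := by
  refine ⟨b, ?_⟩
  funext ⟨σ, τ⟩
  obtain ⟨g, rfl⟩ := resHom_surjective q V hfix N σ
  obtain ⟨h, rfl⟩ := resHom_surjective q V hfix N τ
  apply inclAdd_injective q V N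
  have h1 := inclAdd_pullCocycle q V E N hι f g h
  have h2 : (d₁₂ (lModOn q V)).hom x (g, h) = (lModOn q V).ρ g (x h) - x (g * h) + x g :=
    d₁₂_hom_apply _ _ _
  have h3 : (d₁₂ (L.unitsRep (fixedFld q V) N)).hom b (resHom q V N g, resHom q V N h) =
      (L.unitsRep (fixedFld q V) N).ρ (resHom q V N g) (b (resHom q V N h)) -
        b (resHom q V N g * resHom q V N h) + b (resHom q V N g) :=
    d₁₂_hom_apply _ _ _
  have h4 : inclAdd q V N ((L.unitsRep (fixedFld q V) N).ρ (resHom q V N g)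
      (b (resHom q V N h)) - b (resHom q V N g * resHom q V N h) + b (resHom q V N g)) =
      (lModOn q V).ρ g (x h) - x (g * h) + x g := by
    rw [map_add, map_sub, inclAdd_ρ, ← map_mul, hb, hb, hb]
  exact (congrArg (inclAdd q V N) h3).trans
    (h4.trans (h2.symm.trans ((congrFun hd (g, h)).trans h1.symm)))

/-- Injectivity of inflation at finite level, in the form needed here. -/
lemma cls_eq_zero_of_pullCocycle (K E N : Type) [Field K] [Field E] [Field N] [Algebra K E]
    [Algebra K N] [Algebra E N] [IsScalarTower K E N] [Normal K E] [FiniteDimensional K N]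
    [IsGalois K N] (f : cocycles₂ (L.unitsRep K E))
    (h : ((L.Inv481.inflPair K E N).pullCocycle f : (N ≃ₐ[K] N) × (N ≃ₐ[K] N) → L.unitsRep K N) ∈
      coboundaries₂ (L.unitsRep K N)) : L.cls f = 0 := by
  apply L.Inv481.inflPair_pull_injective K E N
  rw [map_zero, L.Inv481.GalPair.pull_cls]
  exact (H2π_eq_zero_iff _).2 h

/-- **LOC-DOWN**: inflation to the absolute level is injective on classes. -/
theorem down_of (hO : OpenSpec) : DownSpec := by
  intro q _ V hV E _ _ f c hinfl hcob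
  obtain ⟨hfin, hfix⟩ := hO q V hV
  obtain ⟨x, hx, hd⟩ := (mem_levelCoboundaries₂_iff _ _ _).1 hcob
  obtain ⟨F, hF, hxF⟩ := hx
  haveI := hF
  obtain ⟨E₁, hE₁, hE₁F⟩ := Bridge.exists_local_level_of_global q F
  haveI := hE₁
  have hxE₁ : ∀ g s : ↥V,
      (s : PadicAlgCl q ≃ₐ[ℚ_[q]] PadicAlgCl q) ∈ E₁.fixingSubgroup → x (g * s) = x g :=
    fun g s hs => hxF g s (hE₁F _ hs)
  -- `x g` depends only on the restriction of `g` to a level containing `E₁`
  have hdep : ∀ (M : IntermediateField (fixedFld q V) (PadicAlgCl q)) [Normal (fixedFld q V) M],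
      (∀ y ∈ E₁, y ∈ M) → ∀ g g' : ↥V, resHom q V M g = resHom q V M g' → x g = x g' := by
    intro M _ hM g g' h
    have := hxE₁ g (g⁻¹ * g') (inv_mul_mem_fixingSubgroup q V M E₁ hM g g' h)
    rw [mul_inv_cancel_left] at this
    exact this.symm
  -- first level: finitely many values
  obtain ⟨N₁, hN₁fin, hN₁gal, -, hN₁E₁, -⟩ :=
    exists_galois_level q (fixedFld q V) E E₁ ∅ Set.finite_empty
  haveI := hN₁fin
  haveI := hN₁gal
  have hsurj₁ := resHom_surjective q V hfix N₁
  choose lift₁ hlift₁ using hsurj₁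
  have hT : (Set.range (fun σ : N₁ ≃ₐ[fixedFld q V] N₁ =>
      ((Additive.toMul (x (lift₁ σ)) : (PadicAlgCl q)ˣ) : PadicAlgCl q))).Finite :=
    Set.finite_range _
  -- second level: contains `E`, `E₁` and the values of `x`
  obtain ⟨N, hNfin, hNgal, hEN, hNE₁, hNT⟩ := exists_galois_level q (fixedFld q V) E E₁ _ hT
  haveI := hNfin
  haveI := hNgal
  have hval : ∀ g : ↥V, ((Additive.toMul (x g) : (PadicAlgCl q)ˣ) : PadicAlgCl q) ∈ N := by
    intro g
    apply hNT
    refine ⟨resHom q V N₁ g, ?_⟩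
    show ((Additive.toMul (x (lift₁ (resHom q V N₁ g))) : (PadicAlgCl q)ˣ) : PadicAlgCl q) = _
    rw [hdep N₁ hN₁E₁ _ g (hlift₁ _)]
  obtain ⟨b, hb⟩ := exists_descent q V hfix N x (hdep N hNE₁) hval
  -- the tower `K_V ⊆ E ⊆ N`
  letI : Algebra ↥E ↥N := (IntermediateField.inclusion hEN).toRingHom.toAlgebra
  haveI : IsScalarTower (fixedFld q V) ↥E ↥N := IsScalarTower.of_algebraMap_eq (fun _ => rfl)
  have hι : ∀ y : ↥E, ((algebraMap ↥E ↥N y : ↥N) : PadicAlgCl q) = (y : PadicAlgCl q) :=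
    fun _ => rfl
  have hd' : (d₁₂ (lModOn q V)).hom x = inflCochain₂ q V E
      (f : (E ≃ₐ[fixedFld q V] E) × (E ≃ₐ[fixedFld q V] E) → L.unitsRep (fixedFld q V) E) :=
    hd.trans hinfl
  exact cls_eq_zero_of_pullCocycle (fixedFld q V) E N f
    (pullCocycle_mem_coboundaries₂ q V hfix E N hι f x hd' b hb)

/-- **LOC-DOWN**, unconditionally (`OpenSpec` is `H478.openSpec`). -/
theorem down : DownSpec := down_of H478.openSpec

end Fermat.Agent.S55.G.Rec.Loc.H363

end
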