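import Fermat.Agent.S55.G.Rec.Loc.Spec
import Fermat.Agent.S55.Bridge.Krasner

/-!
# S55 / G / REC / LOC, leaf LOC-UP (helper839): `up : UpSpec`

A finite-level coboundary inflates to a level coboundary.  Also exported:

* `exists_level_resHom` : restriction `V → Gal(E/K_V)` to a finite level `E` is level-constant;
* `isLevelConstant₁_inflCochain₁`, `isLevelConstant₂_inflCochain₂`;
* `inflCochain₂_d₁₂` : inflation commutes with the differential `d₁₂`.
-/

set_option autoImplicit false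

noncomputable section

namespace Fermat.Agent.S55.G.Rec.Loc.H839

open groupCohomology Fermat.Agent.S55.G.Rec Fermat.Agent.S55.G.Rec.Loc Fermat.Agent.S55.Bridge

variable (q : ℕ) [Fact q.Prime]

/-- An element of `V` fixing a primitive element of `E / K_V` fixes `E` pointwise. -/
lemma fixes_of_fixes_primitive (V : Subgroup (PadicAlgCl q ≃ₐ[ℚ_[q]] PadicAlgCl q))
    (E : IntermediateField (fixedFld q V) (PadicAlgCl q)) (α : E)
    (hα : IntermediateField.adjoin (fixedFld q V) {α} = ⊤) (σ : ↥V)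
    (hσ : (σ : PadicAlgCl q ≃ₐ[ℚ_[q]] PadicAlgCl q) (α : PadicAlgCl q) = α)
    (y : PadicAlgCl q) (hy : y ∈ E) :
    (σ : PadicAlgCl q ≃ₐ[ℚ_[q]] PadicAlgCl q) y = y := by
  set τ : PadicAlgCl q ≃ₐ[fixedFld q V] PadicAlgCl q := toAbsGal q V σ with hτ
  have hτα : τ (α : PadicAlgCl q) = α := hσ
  have hle : IntermediateField.adjoin (fixedFld q V) {(α : PadicAlgCl q)}
      ≤ IntermediateField.fixedField (Subgroup.zpowers τ) := by
    rw [IntermediateField.adjoin_le_iff]
    rintro z hz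
    rw [Set.mem_singleton_iff] at hz
    subst hz
    rintro ⟨ρ, hρ⟩
    obtain ⟨n, rfl⟩ := Subgroup.mem_zpowers_iff.1 hρ
    show (τ ^ n) (α : PadicAlgCl q) = α
    have hfix : τ ∈ MulAction.stabilizer (PadicAlgCl q ≃ₐ[fixedFld q V] PadicAlgCl q)
        (α : PadicAlgCl q) := hτα
    exact (Subgroup.zpow_mem _ hfix n : _)
  have hy' : (⟨y, hy⟩ : E) ∈ IntermediateField.adjoin (fixedFld q V) {α} := by rw [hα]; trivial
  have hyα : y ∈ IntermediateField.adjoin (fixedFld q V) {(α : PadicAlgCl q)} := by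
    have h1 : IntermediateField.lift (IntermediateField.adjoin (fixedFld q V) {α})
        = IntermediateField.adjoin (fixedFld q V) {(α : PadicAlgCl q)} := by
      rw [IntermediateField.lift_adjoin, Set.image_singleton]
    rw [← h1]
    exact (IntermediateField.mem_lift (⟨y, hy⟩ : E)).2 hy'
  exact hle hyα ⟨τ, Subgroup.mem_zpowers τ⟩

/-- Restriction to a finite level `E / K_V` is level-constant (in the Prelude's sense). -/
theorem exists_level_resHom (V : Subgroup (PadicAlgCl q ≃ₐ[ℚ_[q]] PadicAlgCl q))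
    (E : IntermediateField (fixedFld q V) (PadicAlgCl q))
    [FiniteDimensional (fixedFld q V) E] [Normal (fixedFld q V) E] :
    ∃ F : IntermediateField ℚ (AlgebraicClosure ℚ), FiniteDimensional ℚ F ∧
      ∀ σ : ↥V, lHom q V σ ∈ F.fixingSubgroup → resHom q V E σ = 1 := by
  obtain ⟨α, hα⟩ := Field.exists_primitive_element (fixedFld q V) E
  have : Algebra.IsAlgebraic ℚ_[q] (PadicAlgCl q) := inferInstance
  have : FiniteDimensional ℚ_[q] (IntermediateField.adjoin ℚ_[q] {(α : PadicAlgCl q)}) :=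
    IntermediateField.adjoin.finiteDimensional (Algebra.IsIntegral.isIntegral _)
  obtain ⟨F, hF, h⟩ := exists_global_level_of_local q
    (IntermediateField.adjoin ℚ_[q] {(α : PadicAlgCl q)})
  refine ⟨F, hF, fun σ hσ => ?_⟩
  have h1 := h (σ : PadicAlgCl q ≃ₐ[ℚ_[q]] PadicAlgCl q) hσ
  have h2 : (σ : PadicAlgCl q ≃ₐ[ℚ_[q]] PadicAlgCl q) (α : PadicAlgCl q) = α :=
    (IntermediateField.mem_fixingSubgroup_iff _ _).1 h1 _
      (IntermediateField.subset_adjoin ℚ_[q] _ (Set.mem_singleton _))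
  ext x
  rw [resHom_apply_coe]
  exact fixes_of_fixes_primitive q V E α hα σ h2 x x.2

theorem isLevelConstant₁_inflCochain₁ (V : Subgroup (PadicAlgCl q ≃ₐ[ℚ_[q]] PadicAlgCl q))
    (E : IntermediateField (fixedFld q V) (PadicAlgCl q))
    [FiniteDimensional (fixedFld q V) E] [Normal (fixedFld q V) E]
    (b : (E ≃ₐ[fixedFld q V] E) → L.unitsRep (fixedFld q V) E) :
    IsLevelConstant₁ (lHom q V) (inflCochain₁ q V E b) := by
  obtain ⟨F, hF, h⟩ := exists_level_resHom q V E
  refine ⟨F, hF, fun g s hs => ?_⟩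
  unfold inflCochain₁
  rw [map_mul, h s hs, mul_one]

theorem isLevelConstant₂_inflCochain₂ (V : Subgroup (PadicAlgCl q ≃ₐ[ℚ_[q]] PadicAlgCl q))
    (E : IntermediateField (fixedFld q V) (PadicAlgCl q))
    [FiniteDimensional (fixedFld q V) E] [Normal (fixedFld q V) E]
    (f : (E ≃ₐ[fixedFld q V] E) × (E ≃ₐ[fixedFld q V] E) → L.unitsRep (fixedFld q V) E) :
    IsLevelConstant₂ (lHom q V) (inflCochain₂ q V E f) := by
  obtain ⟨F, hF, h⟩ := exists_level_resHom q V E
  refine ⟨F, hF, fun g g' s s' hs hs' => ?_⟩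
  unfold inflCochain₂
  simp only []
  rw [map_mul, map_mul, h s hs, h s' hs', mul_one, mul_one]

/-- The inclusion `Eˣ → ℚ̄_qˣ` as a linear map of the underlying modules. -/
def inclLin (V : Subgroup (PadicAlgCl q ≃ₐ[ℚ_[q]] PadicAlgCl q))
    (E : IntermediateField (fixedFld q V) (PadicAlgCl q)) :
    L.unitsRep (fixedFld q V) E →ₗ[ℤ] lModOn q V :=
  (MonoidHom.toAdditive (unitsIncl q V E)).toIntLinearMap

/-- the inclusion `Eˣ → ℚ̄_qˣ` is equivariant along `resHom` -/
lemma inclLin_equivariant (V : Subgroup (PadicAlgCl q ≃ₐ[ℚ_[q]] PadicAlgCl q))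
    (E : IntermediateField (fixedFld q V) (PadicAlgCl q)) [Normal (fixedFld q V) E]
    (g : ↥V) (x : L.unitsRep (fixedFld q V) E) :
    inclLin q V E ((L.unitsRep (fixedFld q V) E).ρ (resHom q V E g) x) =
      (lModOn q V).ρ g (inclLin q V E x) := by
  apply Additive.toMul.injective
  apply Units.ext
  exact resHom_apply_coe q V E g _

lemma inflCochain₁_eq (V : Subgroup (PadicAlgCl q ≃ₐ[ℚ_[q]] PadicAlgCl q))
    (E : IntermediateField (fixedFld q V) (PadicAlgCl q)) [Normal (fixedFld q V) E]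
    (b : (E ≃ₐ[fixedFld q V] E) → L.unitsRep (fixedFld q V) E) :
    inflCochain₁ q V E b = cochainsPullPush₁ (resHom q V E) (inclLin q V E) b := rfl

lemma inflCochain₂_eq (V : Subgroup (PadicAlgCl q ≃ₐ[ℚ_[q]] PadicAlgCl q))
    (E : IntermediateField (fixedFld q V) (PadicAlgCl q)) [Normal (fixedFld q V) E]
    (f : (E ≃ₐ[fixedFld q V] E) × (E ≃ₐ[fixedFld q V] E) → L.unitsRep (fixedFld q V) E) :
    inflCochain₂ q V E f = cochainsPullPush₂ (resHom q V E) (inclLin q V E) f := rfl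

/-- inflation commutes with the differential -/
theorem inflCochain₂_d₁₂ (V : Subgroup (PadicAlgCl q ≃ₐ[ℚ_[q]] PadicAlgCl q))
    (E : IntermediateField (fixedFld q V) (PadicAlgCl q)) [Normal (fixedFld q V) E]
    (b : (E ≃ₐ[fixedFld q V] E) → L.unitsRep (fixedFld q V) E) :
    inflCochain₂ q V E ((d₁₂ (L.unitsRep (fixedFld q V) E)).hom b) =
      (d₁₂ (lModOn q V)).hom (inflCochain₁ q V E b) := by
  rw [inflCochain₂_eq, inflCochain₁_eq]
  exact cochainsPullPush₂_d₁₂ (resHom q V E) (inclLin q V E) (inclLin_equivariant q V E) b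

/-- **LOC-UP.** -/
theorem up : UpSpec := by
  intro q _ V _ E _ _ f c hinf hcls
  have hf : (f : (E ≃ₐ[fixedFld q V] E) × (E ≃ₐ[fixedFld q V] E) →
      L.unitsRep (fixedFld q V) E) ∈ coboundaries₂ (L.unitsRep (fixedFld q V) E) :=
    (H2π_eq_zero_iff f).mp hcls
  obtain ⟨b, hb⟩ := hf
  rw [mem_levelCoboundaries₂_iff]
  refine ⟨inflCochain₁ q V E b, isLevelConstant₁_inflCochain₁ q V E b, ?_⟩
  rw [hinf, ← inflCochain₂_d₁₂, hb]

end Fermat.Agent.S55.G.Rec.Loc.H839
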