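import Fermat.Agent.S55.G.Rec.Loc.Spec

/-!
# S55 / layer G / block REC / sub-block LOC : leaf LOC-REF `RefineSpec`   (helper123)

For finite Galois levels `E ≤ E'` over `K_V` and a cocycle `f` on `Gal(E / K_V)`, the cocycle
`f' (g, h) := f (g|_E, h|_E)` (pushed to `E'ˣ`) on `Gal(E' / K_V)`

* has the same absolute inflation to `V` as `f`, and
* is an inflation of `f` in the sense of `L.IsInflation` (for the inclusion algebra `E → E'`),
  hence has the same invariant for every `J : L.InvFamily`.

Main result: `refine123 : RefineSpec` (no hypotheses).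
-/

set_option autoImplicit false
set_option linter.style.haveILetI false
set_option linter.unusedSectionVars false

noncomputable section

namespace Fermat.Agent.S55.G.Rec.Loc.H123

open groupCohomology Fermat.Agent.S55.G.Rec Fermat.Agent.S55.G.Rec.Loc

section Abstract

variable {K E E' : Type} [Field K] [Field E] [Field E'] [Algebra K E] [Algebra K E']
  [Algebra E E'] [IsScalarTower K E E'] [Normal K E]

/-- The inflated cochain on `Gal(E'/K)`. -/
def inflFun (f : (E ≃ₐ[K] E) × (E ≃ₐ[K] E) → L.unitsRep K E) :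
    (E' ≃ₐ[K] E') × (E' ≃ₐ[K] E') → L.unitsRep K E' :=
  fun p => Additive.ofMul (Units.map (algebraMap E E' : E →* E')
    (Additive.toMul (f (AlgEquiv.restrictNormalHom E p.1, AlgEquiv.restrictNormalHom E p.2))))

lemma inflFun_mem_cocycles₂ (f : cocycles₂ (L.unitsRep K E)) :
    inflFun (E' := E') (f : (E ≃ₐ[K] E) × (E ≃ₐ[K] E) → L.unitsRep K E) ∈
      cocycles₂ (L.unitsRep K E') := by
  rw [mem_cocycles₂_iff]
  intro g h j
  have hf := (mem_cocycles₂_iff (f : (E ≃ₐ[K] E) × (E ≃ₐ[K] E) → L.unitsRep K E)).1 f.2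
    (AlgEquiv.restrictNormalHom E g) (AlgEquiv.restrictNormalHom E h)
    (AlgEquiv.restrictNormalHom E j)
  rw [← map_mul, ← map_mul] at hf
  set F := (f : (E ≃ₐ[K] E) × (E ≃ₐ[K] E) → L.unitsRep K E) with hF
  have hf' : ((Additive.toMul (F (AlgEquiv.restrictNormalHom E (g * h),
        AlgEquiv.restrictNormalHom E j)) : Eˣ) : E) *
      ((Additive.toMul (F (AlgEquiv.restrictNormalHom E g,
        AlgEquiv.restrictNormalHom E h)) : Eˣ) : E) =
      (AlgEquiv.restrictNormalHom E g) ((Additive.toMul (F (AlgEquiv.restrictNormalHom E h,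
        AlgEquiv.restrictNormalHom E j)) : Eˣ) : E) *
      ((Additive.toMul (F (AlgEquiv.restrictNormalHom E g,
        AlgEquiv.restrictNormalHom E (h * j))) : Eˣ) : E) :=
    congrArg (fun x : L.unitsRep K E => ((Additive.toMul x : Eˣ) : E)) hf
  apply Additive.toMul.injective
  apply Units.ext
  show algebraMap E E' ((Additive.toMul (F (AlgEquiv.restrictNormalHom E (g * h),
        AlgEquiv.restrictNormalHom E j)) : Eˣ) : E) *
      algebraMap E E' ((Additive.toMul (F (AlgEquiv.restrictNormalHom E g,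
        AlgEquiv.restrictNormalHom E h)) : Eˣ) : E) =
      g (algebraMap E E' ((Additive.toMul (F (AlgEquiv.restrictNormalHom E h,
        AlgEquiv.restrictNormalHom E j)) : Eˣ) : E)) *
      algebraMap E E' ((Additive.toMul (F (AlgEquiv.restrictNormalHom E g,
        AlgEquiv.restrictNormalHom E (h * j))) : Eˣ) : E)
  rw [← AlgEquiv.restrictNormal_commutes g E, ← map_mul, ← map_mul]
  exact congrArg _ hf'

end Abstract

/-- **LOC-REF** (`RefineSpec` of `Loc/Spec.lean`). -/
theorem refine123 : RefineSpec := by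
  intro q _ V _ E E' _ _ _ _ hEE' f
  letI : Algebra E E' := (IntermediateField.inclusion hEE').toRingHom.toAlgebra
  haveI : IsScalarTower (fixedFld q V) E E' :=
    IsScalarTower.of_algebraMap_eq fun _ => rfl
  haveI : IsScalarTower E E' (PadicAlgCl q) :=
    IsScalarTower.of_algebraMap_eq fun _ => rfl
  refine ⟨⟨inflFun (E' := E') (f : (E ≃ₐ[fixedFld q V] E) × (E ≃ₐ[fixedFld q V] E) →
      L.unitsRep (fixedFld q V) E), inflFun_mem_cocycles₂ f⟩, ?_, ?_⟩
  · intro c hc
    unfold IsAbsInflation at hc ⊢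
    rw [hc]
    funext p
    have h1 : AlgEquiv.restrictNormalHom E (resHom q V E' p.1) = resHom q V E p.1 :=
      (IsScalarTower.AlgEquiv.restrictNormalHom_comp_apply (F := fixedFld q V)
        (K₃ := PadicAlgCl q) E E' (toAbsGal q V p.1)).symm
    have h2 : AlgEquiv.restrictNormalHom E (resHom q V E' p.2) = resHom q V E p.2 :=
      (IsScalarTower.AlgEquiv.restrictNormalHom_comp_apply (F := fixedFld q V)
        (K₃ := PadicAlgCl q) E E' (toAbsGal q V p.2)).symm
    apply Additive.toMul.injective
    apply Units.ext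
    show _ = algebraMap E' (PadicAlgCl q) (algebraMap E E'
      (((Additive.toMul ((f : (E ≃ₐ[fixedFld q V] E) × (E ≃ₐ[fixedFld q V] E) →
        L.unitsRep (fixedFld q V) E) (AlgEquiv.restrictNormalHom E (resHom q V E' p.1),
          AlgEquiv.restrictNormalHom E (resHom q V E' p.2))) : (↥E)ˣ) : E)))
    rw [h1, h2]
    rfl
  · intro J
    exact J.inv_inflation (fixedFld q V) E E' f _ (fun g h => rfl)

end Fermat.Agent.S55.G.Rec.Loc.H123

end
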