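import Fermat.Agent.S55.G.Rec.Loc.Spec

/-!
# S55 / G / REC / LOC : leaf LOC-RES (`ResSpec`), helper480

`theorem res_of (hO : OpenSpec) (hD : DescentSpec) : ResSpec`.

Route: by `DescentSpec` choose a finite Galois level `E / K_V` containing `K_{V'}`, with a cocycle
`f` inflating to `c`.  The same field regarded over `K_{V'}` is a level `E'` of `V'`; the
restriction `f'` of `f` to `Gal(E / K_{V'})` inflates to `c' = c|_{V'}`, and
`inv(f') = [K_{V'} : K_V] • inv(f)` by `J.inv_transport` and `J.inv_restriction`.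
Finally `[K_{V'} : K_V] = [V : V']` by infinite Galois theory and `OpenSpec`.
-/

set_option autoImplicit false

noncomputable section

namespace Fermat.Agent.S55.G.Rec.Loc.H480

open groupCohomology

/-! ## Pull–push of cocycles -/

/-- Pull–push of `2`-cocycles along a group homomorphism `φ : G' →* G` and an additive map
`ψ : A → A'` intertwining the actions. -/
def pullPush₂ {G G' : Type} [Group G] [Group G'] {A : Rep.{0} ℤ G} {A' : Rep.{0} ℤ G'}
    (φ : G' →* G) (ψ : A →+ A') (hψ : ∀ (g : G') (a : A), ψ (A.ρ (φ g) a) = A'.ρ g (ψ a))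
    (f : cocycles₂ A) : cocycles₂ A' :=
  ⟨fun p => ψ ((f : G × G → A) (φ p.1, φ p.2)), by
    rw [mem_cocycles₂_iff]
    intro g h j
    have := (mem_cocycles₂_iff (f : G × G → A)).1 f.2 (φ g) (φ h) (φ j)
    show ψ ((f : G × G → A) (φ (g * h), φ j)) + ψ ((f : G × G → A) (φ g, φ h)) =
      A'.ρ g (ψ ((f : G × G → A) (φ h, φ j))) + ψ ((f : G × G → A) (φ g, φ (h * j)))
    rw [← hψ, ← ψ.map_add, ← ψ.map_add, map_mul, map_mul, this]⟩

@[simp] lemma pullPush₂_apply {G G' : Type} [Group G] [Group G'] {A : Rep.{0} ℤ G}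
    {A' : Rep.{0} ℤ G'}
    (φ : G' →* G) (ψ : A →+ A') (hψ : ∀ (g : G') (a : A), ψ (A.ρ (φ g) a) = A'.ρ g (ψ a))
    (f : cocycles₂ A) (g h : G') :
    (pullPush₂ φ ψ hψ f : G' × G' → A') (g, h) = ψ ((f : G × G → A) (φ g, φ h)) := rfl

/-! ## Abstract restriction of the base field -/

section Abstract

variable {k Ω : Type} [Field k] [Field Ω] [Algebra k Ω]

/-- The `K`-algebra structure on `K'` for intermediate fields `K ≤ K'`. -/
@[reducible] def algOfLE {K K' : IntermediateField k Ω} (h : K ≤ K') : Algebra K K' :=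
  (IntermediateField.inclusion h).toRingHom.toAlgebra

lemma isScalarTower_algOfLE {K K' : IntermediateField k Ω} (h : K ≤ K') :
    letI := algOfLE h
    IsScalarTower K K' Ω :=
  letI := algOfLE h
  IsScalarTower.of_algebraMap_eq (fun _ => rfl)

lemma isScalarTower_base_algOfLE {K K' : IntermediateField k Ω} (h : K ≤ K') :
    letI := algOfLE h
    IsScalarTower k K K' :=
  letI := algOfLE h
  IsScalarTower.of_algebraMap_eq (fun _ => rfl)

variable {K K' : IntermediateField k Ω}

/-- The identity map `E ≃ E'`, where `E'` is `E` regarded as an intermediate field over `K'`. -/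
def upEquiv (hKK' : K ≤ K') (E : IntermediateField K Ω) (hK'E : K' ≤ E.restrictScalars k) :
    letI := algOfLE hKK'
    haveI := isScalarTower_algOfLE hKK'
    ↥E ≃ₐ[K] ↥(IntermediateField.extendScalars hK'E) :=
  letI := algOfLE hKK'
  haveI := isScalarTower_algOfLE hKK'
  { toFun := fun x => ⟨x.1, x.2⟩
    invFun := fun x => ⟨x.1, x.2⟩
    left_inv := fun _ => rfl
    right_inv := fun _ => rfl
    map_mul' := fun _ _ => rfl
    map_add' := fun _ _ => rfl
    commutes' := fun _ => rfl }

lemma upEquiv_coe (hKK' : K ≤ K') (E : IntermediateField K Ω)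
    (hK'E : K' ≤ E.restrictScalars k) (x : E) :
    ((upEquiv hKK' E hK'E x : ↥(IntermediateField.extendScalars hK'E)) : Ω) = (x : Ω) := rfl

lemma finiteDimensional_up (hKK' : K ≤ K') (E : IntermediateField K Ω)
    (hK'E : K' ≤ E.restrictScalars k) [FiniteDimensional K E] :
    FiniteDimensional K' ↥(IntermediateField.extendScalars hK'E) := by
  let := algOfLE hKK'
  have := isScalarTower_algOfLE hKK'
  have : FiniteDimensional K ↥(IntermediateField.extendScalars hK'E) :=
    (upEquiv hKK' E hK'E).toLinearEquiv.finiteDimensional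
  exact Module.Finite.right K K' ↥(IntermediateField.extendScalars hK'E)

lemma isGalois_up (hKK' : K ≤ K') (E : IntermediateField K Ω)
    (hK'E : K' ≤ E.restrictScalars k) [IsGalois K E] :
    IsGalois K' ↥(IntermediateField.extendScalars hK'E) := by
  let := algOfLE hKK'
  have := isScalarTower_algOfLE hKK'
  have : IsGalois K ↥(IntermediateField.extendScalars hK'E) :=
    IsGalois.of_algEquiv (upEquiv hKK' E hK'E)
  exact IsGalois.tower_top_of_isGalois K K' ↥(IntermediateField.extendScalars hK'E)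

/-- The restriction homomorphism `Gal(E / K') → Gal(E / K)` (with `E` over `K'` realised as
`extendScalars`). -/
def downHom (hKK' : K ≤ K') (E : IntermediateField K Ω) (hK'E : K' ≤ E.restrictScalars k) :
    (↥(IntermediateField.extendScalars hK'E) ≃ₐ[K'] ↥(IntermediateField.extendScalars hK'E)) →*
      (↥E ≃ₐ[K] ↥E) :=
  letI := algOfLE hKK'
  haveI := isScalarTower_algOfLE hKK'
  (AlgEquiv.autCongr (upEquiv hKK' E hK'E)).symm.toMonoidHom.comp
    (AlgEquiv.restrictScalarsHom K)

lemma downHom_apply_coe (hKK' : K ≤ K') (E : IntermediateField K Ω)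
    (hK'E : K' ≤ E.restrictScalars k)
    (g : ↥(IntermediateField.extendScalars hK'E) ≃ₐ[K'] ↥(IntermediateField.extendScalars hK'E))
    (x : E) :
    ((downHom hKK' E hK'E g x : E) : Ω) =
      ((g ⟨x.1, x.2⟩ : ↥(IntermediateField.extendScalars hK'E)) : Ω) := rfl

/-- The coefficient map `Eˣ → E'ˣ` (identity on carriers). -/
def upUnits (hKK' : K ≤ K') (E : IntermediateField K Ω) (hK'E : K' ≤ E.restrictScalars k) :
    L.unitsRep K E →+ L.unitsRep K' ↥(IntermediateField.extendScalars hK'E) :=
  letI := algOfLE hKK'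
  haveI := isScalarTower_algOfLE hKK'
  (show Additive (↥E)ˣ →+ Additive (↥(IntermediateField.extendScalars hK'E))ˣ from
    MonoidHom.toAdditive (Units.map ((upEquiv hKK' E hK'E : ↥E ≃ₐ[K] _) : ↥E →* _)))

lemma upUnits_coe (hKK' : K ≤ K') (E : IntermediateField K Ω)
    (hK'E : K' ≤ E.restrictScalars k) (a : L.unitsRep K E) :
    (((Additive.toMul (upUnits hKK' E hK'E a) :
        (↥(IntermediateField.extendScalars hK'E))ˣ) :
        ↥(IntermediateField.extendScalars hK'E)) : Ω) =
      (((Additive.toMul a : (↥E)ˣ) : ↥E) : Ω) := rfl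

/-- The restriction of a cocycle on `Gal(E/K)` to `Gal(E/K')`. -/
def resCocycle (hKK' : K ≤ K') (E : IntermediateField K Ω) (hK'E : K' ≤ E.restrictScalars k)
    (f : cocycles₂ (L.unitsRep K E)) :
    cocycles₂ (L.unitsRep K' ↥(IntermediateField.extendScalars hK'E)) :=
  pullPush₂ (downHom hKK' E hK'E) (upUnits hKK' E hK'E) (fun _ _ => rfl) f

lemma resCocycle_apply (hKK' : K ≤ K') (E : IntermediateField K Ω)
    (hK'E : K' ≤ E.restrictScalars k) (f : cocycles₂ (L.unitsRep K E))
    (g h : ↥(IntermediateField.extendScalars hK'E) ≃ₐ[K']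
      ↥(IntermediateField.extendScalars hK'E)) :
    (resCocycle hKK' E hK'E f : _ × _ → _) (g, h) =
      upUnits hKK' E hK'E
        ((f : (↥E ≃ₐ[K] ↥E) × (↥E ≃ₐ[K] ↥E) → L.unitsRep K E)
          (downHom hKK' E hK'E g, downHom hKK' E hK'E h)) := rfl

/-- The invariant of the restricted cocycle. -/
theorem inv_resCocycle (hKK' : K ≤ K') (E : IntermediateField K Ω)
    (hK'E : K' ≤ E.restrictScalars k) [L.IsLocalFld K] [L.IsLocalFld K']
    [FiniteDimensional K E] [IsGalois K E]
    [FiniteDimensional K' ↥(IntermediateField.extendScalars hK'E)]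
    [IsGalois K' ↥(IntermediateField.extendScalars hK'E)]
    (J : L.InvFamily) (f : cocycles₂ (L.unitsRep K E)) :
    J.inv K' ↥(IntermediateField.extendScalars hK'E) (L.cls (resCocycle hKK' E hK'E f)) =
      (@Module.finrank K K' _ _ (algOfLE hKK').toModule) • J.inv K E (L.cls f) := by
  let := algOfLE hKK'
  have := isScalarTower_algOfLE hKK'
  have : FiniteDimensional K ↥(IntermediateField.extendScalars hK'E) :=
    (upEquiv hKK' E hK'E).toLinearEquiv.finiteDimensional
  have : IsGalois K ↥(IntermediateField.extendScalars hK'E) :=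
    IsGalois.of_algEquiv (upEquiv hKK' E hK'E)
  let cc : (↥E ≃ₐ[K] ↥E) ≃* (↥(IntermediateField.extendScalars hK'E) ≃ₐ[K]
      ↥(IntermediateField.extendScalars hK'E)) := AlgEquiv.autCongr (upEquiv hKK' E hK'E)
  let ψ₁ : L.unitsRep K E →+ L.unitsRep K ↥(IntermediateField.extendScalars hK'E) :=
    (show Additive (↥E)ˣ →+ Additive (↥(IntermediateField.extendScalars hK'E))ˣ from
      MonoidHom.toAdditive (Units.map ((upEquiv hKK' E hK'E : ↥E ≃ₐ[K] _) : ↥E →* _)))
  let f₁ : cocycles₂ (L.unitsRep K ↥(IntermediateField.extendScalars hK'E)) :=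
    pullPush₂ cc.symm.toMonoidHom ψ₁ (fun _ _ => rfl) f
  have htr : L.IsTransport ((upEquiv hKK' E hK'E : ↥E ≃ₐ[K] _) : ↥E ≃+* _) cc f f₁ := by
    intro g h
    rfl
  have hres : L.IsRestriction f₁ (resCocycle hKK' E hK'E f) := by
    intro g h
    rfl
  rw [J.inv_restriction K K' ↥(IntermediateField.extendScalars hK'E) f₁ _ hres,
    J.inv_transport K ↥E K ↥(IntermediateField.extendScalars hK'E) _ cc (fun _ _ => rfl)
      f f₁ htr]

end Abstract

/-! ## The `q`-adic situation -/

section Padic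

variable (q : ℕ) [Fact q.Prime]

local notation "Gq" => (PadicAlgCl q ≃ₐ[ℚ_[q]] PadicAlgCl q)

/-- `PadicAlgCl q / ℚ_q` is Galois. -/
theorem isGalois_padicAlgCl_h480 : IsGalois ℚ_[q] (PadicAlgCl q) := by
  have : IsAlgClosure ℚ_[q] (PadicAlgCl q) := ⟨inferInstance, inferInstance⟩
  have : Normal ℚ_[q] (PadicAlgCl q) := IsAlgClosure.normal ℚ_[q] (PadicAlgCl q)
  exact isGalois_iff.mpr ⟨inferInstance, inferInstance⟩

lemma fixedFld_mono {V V' : Subgroup Gq} (h : V' ≤ V) : fixedFld q V ≤ fixedFld q V' := by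
  intro x hx
  exact fun g => hx ⟨g.1, h g.2⟩

lemma isOpenL_mono {V V' : Subgroup Gq} (h : V' ≤ V) (hV' : IsOpenL q V') : IsOpenL q V := by
  obtain ⟨E, hE, hEV⟩ := hV'
  exact ⟨E, hE, hEV.trans h⟩

/-- `[K_{V'} : K_V] = [V : V']` for open `V' ≤ V`. -/
lemma finrank_eq_relIndex (hO : OpenSpec) {V V' : Subgroup Gq} (h : V' ≤ V)
    (hV' : IsOpenL q V') :
    @Module.finrank (fixedFld q V) (fixedFld q V') _ _ (algOfLE (fixedFld_mono q h)).toModule =
      V'.relIndex V := by
  let := algOfLE (fixedFld_mono q h)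
  have := isScalarTower_base_algOfLE (fixedFld_mono q h)
  have := isGalois_padicAlgCl_h480 q
  obtain ⟨hfd', hfix'⟩ := hO q V' hV'
  obtain ⟨hfd, hfix⟩ := hO q V (isOpenL_mono q h hV')
  have h1 := IntermediateField.finrank_eq_fixingSubgroup_index (F := ℚ_[q])
    (E' := PadicAlgCl q) (fixedFld q V)
  have h2 := IntermediateField.finrank_eq_fixingSubgroup_index (F := ℚ_[q])
    (E' := PadicAlgCl q) (fixedFld q V')
  rw [hfix] at h1
  rw [hfix'] at h2
  have h3 := Module.finrank_mul_finrank ℚ_[q] (fixedFld q V) (fixedFld q V')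
  have h4 := Subgroup.relIndex_mul_index h
  have hpos : 0 < Module.finrank ℚ_[q] (fixedFld q V) := Module.finrank_pos
  rw [h1] at h3 hpos
  rw [h2, ← h4, mul_comm] at h3
  exact Nat.eq_of_mul_eq_mul_right hpos h3

/-- `K_{V'}` is finite over `K_V`. -/
lemma finiteDimensional_extendScalars (hO : OpenSpec) {V V' : Subgroup Gq} (h : V' ≤ V)
    (hV' : IsOpenL q V') :
    FiniteDimensional (fixedFld q V)
      ↥(IntermediateField.extendScalars (fixedFld_mono q h)) := by
  let := algOfLE (fixedFld_mono q h)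
  have := isScalarTower_base_algOfLE (fixedFld_mono q h)
  obtain ⟨hfd', -⟩ := hO q V' hV'
  have : FiniteDimensional (fixedFld q V) (fixedFld q V') :=
    Module.Finite.right ℚ_[q] (fixedFld q V) (fixedFld q V')
  let e₀ : ↥(fixedFld q V') ≃ₗ[fixedFld q V]
      ↥(IntermediateField.extendScalars (fixedFld_mono q h)) :=
    { toFun := fun x => ⟨x.1, x.2⟩
      invFun := fun x => ⟨x.1, x.2⟩
      left_inv := fun _ => rfl
      right_inv := fun _ => rfl
      map_add' := fun _ _ => rfl
      map_smul' := fun _ _ => rfl }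
  exact e₀.finiteDimensional

/-- Compatibility of the finite-level restriction maps. -/
lemma downHom_resHom {V V' : Subgroup Gq} (h : V' ≤ V)
    (E : IntermediateField (fixedFld q V) (PadicAlgCl q)) [Normal (fixedFld q V) E]
    (hK'E : fixedFld q V' ≤ E.restrictScalars ℚ_[q])
    [Normal (fixedFld q V') ↥(IntermediateField.extendScalars hK'E)] (g : ↥V') :
    downHom (fixedFld_mono q h) E hK'E
        (resHom q V' (IntermediateField.extendScalars hK'E) g) =
      resHom q V E (Subgroup.inclusion h g) := by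
  apply AlgEquiv.ext
  intro x
  apply Subtype.ext
  rw [downHom_apply_coe, resHom_apply_coe, resHom_apply_coe]
  rfl

/-- The restricted cocycle inflates to the restricted level cocycle. -/
lemma isAbsInflation_resCocycle {V V' : Subgroup Gq} (h : V' ≤ V)
    (E : IntermediateField (fixedFld q V) (PadicAlgCl q)) [Normal (fixedFld q V) E]
    (hK'E : fixedFld q V' ≤ E.restrictScalars ℚ_[q])
    [Normal (fixedFld q V') ↥(IntermediateField.extendScalars hK'E)]
    (f : cocycles₂ (L.unitsRep (fixedFld q V) E))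
    (c : ↥(levelCocycles₂ (lHom q V) (lModOn q V)))
    (c' : ↥(levelCocycles₂ (lHom q V') (lModOn q V')))
    (hcc' : ∀ g k : ↥V', (c' : ↥V' × ↥V' → lModOn q V') (g, k) =
        (c : ↥V × ↥V → lModOn q V) (Subgroup.inclusion h g, Subgroup.inclusion h k))
    (hinf : IsAbsInflation q V E f c) :
    IsAbsInflation q V' (IntermediateField.extendScalars hK'E)
      (resCocycle (fixedFld_mono q h) E hK'E f) c' := by
  funext ⟨g, k⟩
  rw [hcc' g k, hinf]
  show inflCochain₂ q V E _ (Subgroup.inclusion h g, Subgroup.inclusion h k) =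
    inflCochain₂ q V' (IntermediateField.extendScalars hK'E) _ (g, k)
  unfold inflCochain₂
  simp only [resCocycle_apply]
  rfl

/-- **LOC-RES** from `OpenSpec` and `DescentSpec`. -/
theorem res_of (hO : OpenSpec) (hD : DescentSpec) : ResSpec := by
  intro q _ V V' _ _ h hV' c c' hcc'
  have hV : IsOpenL q V := isOpenL_mono q h hV'
  obtain ⟨E, hEfd, hEgal, f, hE₀E, hinf⟩ := hD q V hV c
    (IntermediateField.extendScalars (fixedFld_mono q h))
    (finiteDimensional_extendScalars q hO h hV')
  have hK'E : fixedFld q V' ≤ E.restrictScalars ℚ_[q] := fun x hx => hE₀E hx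
  have fd' := finiteDimensional_up (fixedFld_mono q h) E hK'E
  have gal' := isGalois_up (fixedFld_mono q h) E hK'E
  refine ⟨E, hEfd, hEgal, f, IntermediateField.extendScalars hK'E, fd', gal',
    resCocycle (fixedFld_mono q h) E hK'E f, hinf,
    isAbsInflation_resCocycle q h E hK'E f c c' hcc' hinf, fun J => ?_⟩
  rw [inv_resCocycle (fixedFld_mono q h) E hK'E J f, finrank_eq_relIndex q hO h hV']

end Padic

end Fermat.Agent.S55.G.Rec.Loc.H480
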