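import Fermat.Agent.S55.G.Rec.Loc.UnifH544.Coh
import Fermat.Agent.S55.G.Rec.Loc.UnifH544.Local
import Fermat.Agent.S55.G.Rec.Loc.OpenH478

/-!
# S55 / G / REC / LOC, leaf LOC-UNIF (helper544): `UnifSpec`

`theorem unif_of (hO : OpenSpec) : UnifSpec`, and, with `H478.openSpec`, the unconditional
`theorem unif : UnifSpec`.

Proof.  Let `χ : V → ℤ/n` be unramified, `c = π ∪ δχ` level-constant.
1. `χ` is continuous (`exists_level_of_cupChar544`: level-constancy of `c`, `π` is not a root of
   unity).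
2. `χ` is trivial on `V ∩ Gal(ℚ̄_q / K(μ_r))` for some `r` prime to `q`
   (`exists_cyclotomic_level544`: infinite Galois theory + Teichmüller representatives).
   Level `E := K(μ_r)`, finite Galois over `K = K_V`; `χ` descends to `χ_E` on `Gal(E/K)`.
3. `E / K` is unramified (`isUnramifiedExt_cycLevel544`: trivial inertia), the restriction
   `φ_E` of the Frobenius is a Frobenius element and generates `Gal(E/K)`.
4. `f := cupChar π χ_E` inflates to `c`; with the generating character `ψ` (`ψ φ_E = 1`),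
   `cupChar π ψ` is the cyclic cocycle of `(φ_E, π)`, of invariant `1 / d` (`J.inv_unramified`),
   and `[f] = (χ̃(φ) d / n) • [cupChar π ψ]` (`cc_eq_nsmul_cc544`).
-/

set_option autoImplicit false
set_option linter.unusedSectionVars false
set_option linter.style.haveILetI false

noncomputable section

namespace Fermat.Agent.S55.G.Rec.Loc.H544

open groupCohomology Fermat.Agent.S55 Fermat.Agent.S55.G.Rec Fermat.Agent.S55.G.Rec.Loc

/-- Arithmetic in `ℚ/ℤ`. -/
theorem nsmul_inv_eq544 {s d a n : ℕ} (hd : d ≠ 0) (hn : n ≠ 0) (h : s * n = a * d) :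
    s • (((d : ℚ)⁻¹ : ℚ) : AddCircle (1 : ℚ)) = (((a : ℚ) / (n : ℚ) : ℚ) : AddCircle (1 : ℚ)) := by
  rw [← AddCircle.coe_nsmul]
  congr 1
  have hd' : (d : ℚ) ≠ 0 := Nat.cast_ne_zero.2 hd
  have hn' : (n : ℚ) ≠ 0 := Nat.cast_ne_zero.2 hn
  have h' : (s : ℚ) * n = a * d := by exact_mod_cast h
  rw [nsmul_eq_mul]
  field_simp
  linarith

/-- A fixed unit as an invariant of `L.unitsRep`. -/
def unitsInvariant544 {K M : Type} [Field K] [Field M] [Algebra K M] (u : Mˣ)
    (hu : ∀ g : M ≃ₐ[K] M, g • u = u) : (L.unitsRep K M).ρ.invariants :=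
  invariantOfFixed u hu

theorem cupChar_unitsInvariant544 {K M : Type} [Field K] [Field M] [Algebra K M] {n : ℕ}
    [NeZero n] (χ : (M ≃ₐ[K] M) →* Multiplicative (ZMod n)) (u : Mˣ)
    (hu : ∀ g : M ≃ₐ[K] M, g • u = u) (g h : M ≃ₐ[K] M) :
    (cupChar (L.unitsRep K M) χ (unitsInvariant544 u hu) :
      (M ≃ₐ[K] M) × (M ≃ₐ[K] M) → L.unitsRep K M) (g, h) =
      Additive.ofMul (u ^ carry χ g h) := rfl

/-- **LOC-UNIF.** -/
theorem unif_of (hO : OpenSpec) : UnifSpec := by
  intro q _ V _ hV n _ χ hχ φ hφ π hπ c hc J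
  -- the structure of `V` and of `K = K_V`
  obtain ⟨hKfin, hKfix⟩ := hO q V hV
  haveI := hKfin
  obtain ⟨A, hA, hAmem⟩ := L.exists_ringOfIntegers_eq_unitBall63 q (fixedFld q V)
  obtain ⟨hdvr, hcomp, hfinres⟩ := id hA
  haveI := hdvr
  haveI := hcomp
  haveI := hfinres
  obtain ⟨hπfix, hπ0, hπ1, hπmax⟩ := hπ
  -- continuity and the level
  have hcont := exists_level_of_cupChar544 q V n χ π hπ1 c hc
  obtain ⟨r, hr, hqr, hrχ⟩ := exists_cyclotomic_level544 q hO V hV n χ hχ hcont
  haveI := normal_cycLevel544 q V r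
  haveI := finiteDimensional_cycLevel544 q V r
  haveI := isGalois_cycLevel544 q V r
  have hsurj := resHom_surjective544 q V hKfix (cycLevel544 q V r)
  have hker : (resHom q V (cycLevel544 q V r)).ker ≤ χ.ker := by
    intro g hg
    rw [MonoidHom.mem_ker] at hg ⊢
    exact hrχ g fun ζ hζ => fixes_of_resHom_eq_one544 q V hr g hg ζ hζ
  have hχE_res : ∀ g, descChar544 q V (cycLevel544 q V r) χ hsurj hker
      (resHom q V (cycLevel544 q V r) g) = χ g :=
    descChar_resHom544 q V (cycLevel544 q V r) χ hsurj hker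
  have hcomp' : (descChar544 q V (cycLevel544 q V r) χ hsurj hker).comp
      (resHom q V (cycLevel544 q V r)) = χ := MonoidHom.ext hχE_res
  -- the uniformizer as an element of `K` and of `E`
  have hπK : (π : PadicAlgCl q) ∈ fixedFld q V :=
    (IntermediateField.mem_fixedField_iff _ _).2 hπfix
  have hπK0 : (⟨π, hπK⟩ : fixedFld q V) ≠ 0 := fun h => hπ0 (congrArg Subtype.val h)
  obtain ⟨πK, hπKdef⟩ : ∃ πK : (fixedFld q V)ˣ, (πK : fixedFld q V) = ⟨π, hπK⟩ :=
    ⟨Units.mk0 _ hπK0, rfl⟩
  obtain ⟨πE, hπEdef⟩ : ∃ πE : (↥(cycLevel544 q V r))ˣ, πE =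
      Units.map (algebraMap (fixedFld q V) (cycLevel544 q V r) :
        fixedFld q V →* cycLevel544 q V r) πK := ⟨_, rfl⟩
  have hπEincl : unitsIncl q V (cycLevel544 q V r) πE = π := by
    apply Units.ext
    rw [hπEdef]
    show ((algebraMap (fixedFld q V) (cycLevel544 q V r) (πK : fixedFld q V) :
      cycLevel544 q V r) : PadicAlgCl q) = π
    rw [hπKdef]
    rfl
  have hinv : ∀ g : cycLevel544 q V r ≃ₐ[fixedFld q V] cycLevel544 q V r, g • πE = πE := by
    intro g
    apply Units.ext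
    rw [hπEdef]
    exact g.commutes _
  -- the cocycles
  obtain ⟨a, ha⟩ : ∃ a : (L.unitsRep (fixedFld q V) (cycLevel544 q V r)).ρ.invariants,
      a = unitsInvariant544 πE hinv := ⟨_, rfl⟩
  refine ⟨cycLevel544 q V r, inferInstance, inferInstance,
    cupChar (L.unitsRep (fixedFld q V) (cycLevel544 q V r))
      (descChar544 q V (cycLevel544 q V r) χ hsurj hker) a, ?_, ?_⟩
  · -- inflation
    funext ⟨g, h⟩
    rw [isCupChar_apply544 hc, toLMod_nsmul544]
    show toLMod q V (π ^ carry χ g h) = Additive.ofMul (unitsIncl q V (cycLevel544 q V r)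
      (Additive.toMul (cupChar (L.unitsRep (fixedFld q V) (cycLevel544 q V r))
        (descChar544 q V (cycLevel544 q V r) χ hsurj hker) a
        (resHom q V (cycLevel544 q V r) g, resHom q V (cycLevel544 q V r) h))))
    rw [ha, cupChar_unitsInvariant544 (K := ↥(fixedFld q V)) (M := ↥(cycLevel544 q V r)),
      toMul_ofMul, map_pow, hπEincl, ← carry_comp, hcomp']
    rfl
  · -- the invariant
    have hunr : L.IsUnramifiedExt (fixedFld q V) (cycLevel544 q V r) :=
      isUnramifiedExt_cycLevel544 A hAmem hr hqr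
    have hfrobE := isFrobeniusElt544 A hAmem (cycLevel544 q V r) φ hφ
    have hgen := frobenius_generates544 A hAmem (cycLevel544 q V r) hKfix hunr φ hφ
    have hπunif : L.IsUniformizer A (πK : fixedFld q V) := by
      rw [hπKdef]
      exact isUniformizer_of_norm544 A hAmem ⟨π, hπK⟩ hπK0 hπ1 fun x hx =>
        hπmax _ ((IntermediateField.mem_fixedField_iff _ _).1 x.2) hx
    haveI : NeZero (Module.finrank (fixedFld q V) (cycLevel544 q V r)) :=
      ⟨Module.finrank_pos.ne'⟩
    obtain ⟨ψ, hψ⟩ := exists_isGenChar (resHom q V (cycLevel544 q V r) ⟨φ, hφ.1⟩) hgen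
      (IsGalois.card_aut_eq_finrank (fixedFld q V) (cycLevel544 q V r))
    -- the cyclic cocycle
    have hcyc : L.IsCyclicCocycle (resHom q V (cycLevel544 q V r) ⟨φ, hφ.1⟩) πK
        (cupChar (L.unitsRep (fixedFld q V) (cycLevel544 q V r)) ψ a) := by
      intro i j hi hj
      rw [ha, cupChar_unitsInvariant544 (K := ↥(fixedFld q V)) (M := ↥(cycLevel544 q V r)),
        carry, hψ.lift_pow_of_lt hi, hψ.lift_pow_of_lt hj]
      split_ifs with hij
      · rw [Nat.div_eq_of_lt hij, pow_zero]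
        rfl
      · have h1 : (i + j) / Module.finrank (fixedFld q V) (cycLevel544 q V r) = 1 := by
          rw [Nat.div_eq_iff (Nat.pos_of_ne_zero (NeZero.ne _))]
          omega
        rw [h1, pow_one, hπEdef]
    have h1 := J.inv_unramified (fixedFld q V) (cycLevel544 q V r) hunr A hA _ hfrobE πK hπunif
      _ hcyc
    have h2 := cc_eq_nsmul_cc544 (L.unitsRep (fixedFld q V) (cycLevel544 q V r))
      (descChar544 q V (cycLevel544 q V r) χ hsurj hker) hψ a
    have h3 : lift (descChar544 q V (cycLevel544 q V r) χ hsurj hker)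
        (resHom q V (cycLevel544 q V r) ⟨φ, hφ.1⟩) =
        (Multiplicative.toAdd (χ ⟨φ, hφ.1⟩)).val := by
      rw [lift, hχE_res]
    show J.inv (fixedFld q V) (cycLevel544 q V r)
      ((H2π (L.unitsRep (fixedFld q V) (cycLevel544 q V r))).hom _) = _
    rw [h2, map_nsmul]
    have h1' : J.inv (fixedFld q V) (cycLevel544 q V r)
        ((H2π (L.unitsRep (fixedFld q V) (cycLevel544 q V r))).hom
          (cupChar (L.unitsRep (fixedFld q V) (cycLevel544 q V r)) ψ a)) =
        (((Module.finrank (fixedFld q V) (cycLevel544 q V r) : ℚ)⁻¹ : ℚ) :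
          AddCircle (1 : ℚ)) := h1
    rw [h1']
    obtain ⟨s, hs⟩ := dvd_lift_mul544
      (descChar544 q V (cycLevel544 q V r) χ hsurj hker) hψ
    have hn0 : 0 < n := Nat.pos_of_ne_zero (NeZero.ne n)
    have hs' : lift (descChar544 q V (cycLevel544 q V r) χ hsurj hker)
        (resHom q V (cycLevel544 q V r) ⟨φ, hφ.1⟩) *
        Module.finrank (fixedFld q V) (cycLevel544 q V r) / n = s := by
      rw [hs]
      exact Nat.mul_div_cancel_left s hn0
    rw [hs']
    refine nsmul_inv_eq544 (NeZero.ne _) (NeZero.ne n) ?_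
    rw [← h3, hs, mul_comm]

/-- **LOC-UNIF**, unconditional (`OpenSpec` is `H478.openSpec`). -/
theorem unif : UnifSpec := unif_of H478.openSpec

end Fermat.Agent.S55.G.Rec.Loc.H544
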