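import Fermat.Agent.S55.G.Rec.Loc.Glue
import Fermat.Agent.S55.G.Rec.Loc.OpenH478
import Fermat.Agent.S55.G.Rec.Loc.DescentH894
import Fermat.Agent.S55.G.Rec.Loc.UpH839
import Fermat.Agent.S55.G.Rec.Loc.DownH363
import Fermat.Agent.S55.G.Rec.Loc.RefineH123
import Fermat.Agent.S55.G.Rec.Loc.ResH480
import Fermat.Agent.S55.G.Rec.Loc.H483.UnramClosed
import Fermat.Agent.S55.G.Rec.Loc.UnifH544
import Fermat.Agent.S55.L.InvClosed

/-!
# S55 / G / REC / LOC : `LocalInvSystem` EXISTS (unconditional)   — block REC-LOC closed

The absolute local invariant maps `inv_{K_v} : Br(K_v) = H²_cont(V, ℚ̄_qˣ) → ℚ/ℤ` for all open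
`V ≤ Gal(ℚ̄_q/ℚ_q)` and all primes `q`, with injectivity, restriction (× index), vanishing on
unramified unit cocycles and the normalisation `inv (π ∪ δχ) = χ(Frob)/n`:
the structure `G.Rec.LocalInvSystem` consumed by `ReciprocitySpec` (helper1) and by the
`InvSpec` inputs A5–A7 of the duality engine (helper3).

Assembly (helper477): glue `Loc/Glue.lean` + leaves
LOC-FD `H478.openSpec`, LOC-DESC `H894.descent`, LOC-UP `H839.up`, LOC-DOWN `H363.down`,
LOC-REF `H123.refine123`, LOC-RES `H480.res_of`, LOC-UNR `H483.unram` (helper483, helper294),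
LOC-UNIF `H544.unif`, and the closed layer L (`L.Closed.inv : L.InvSpec`).
-/

set_option autoImplicit false

noncomputable section

namespace Fermat.Agent.S55.G.Rec.Loc

/-- LOC-RES, closed. -/
theorem resSpec_closed : ResSpec := H480.res_of H478.openSpec H894.descent

/-- `LocalInvSystem` from ANY family of finite-level invariant maps. -/
def localInvSystemOfFamily (J : L.InvFamily) : LocalInvSystem :=
  localInvSystem_of J H478.openSpec H894.descent H839.up H363.down H123.refine123
    resSpec_closed H483.unram H544.unif

/-- **REC-LOC, closed**: a system of absolute local invariant maps exists. -/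
theorem nonempty_localInvSystem : Nonempty LocalInvSystem :=
  nonempty_localInvSystem_of L.Closed.inv H478.openSpec H894.descent H839.up H363.down
    H123.refine123 resSpec_closed H483.unram H544.unif

/-- A chosen system of absolute local invariant maps. -/
def localInvSystem : LocalInvSystem := Classical.choice nonempty_localInvSystem

end Fermat.Agent.S55.G.Rec.Loc
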