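import Fermat.Agent.S55.G.Rec.Loc.Spec
import Fermat.Agent.S55.L.Inst63

/-!
# S55 / G / REC / LOC : the glue — `LocalInvSystem` from `L.InvFamily`

`localInvSystem_of J hO hD hUp hDn hRf hRs hUr hUf : LocalInvSystem`.
-/

set_option autoImplicit false

noncomputable section

namespace Fermat.Agent.S55.G.Rec.Loc

open groupCohomology

variable (q : ℕ) [Fact q.Prime]

/-! ### Linearity of inflation -/

section Linear

variable (V : Subgroup (PadicAlgCl q ≃ₐ[ℚ_[q]] PadicAlgCl q))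
  (E : IntermediateField (fixedFld q V) (PadicAlgCl q)) [Normal (fixedFld q V) E]

lemma inflCochain₂_add
    (f g : (E ≃ₐ[fixedFld q V] E) × (E ≃ₐ[fixedFld q V] E) → L.unitsRep (fixedFld q V) E) :
    inflCochain₂ q V E (f + g) = inflCochain₂ q V E f + inflCochain₂ q V E g := by
  funext p
  simp only [inflCochain₂, Pi.add_apply]
  rfl

lemma inflCochain₂_sub
    (f g : (E ≃ₐ[fixedFld q V] E) × (E ≃ₐ[fixedFld q V] E) → L.unitsRep (fixedFld q V) E) :
    inflCochain₂ q V E (f - g) = inflCochain₂ q V E f - inflCochain₂ q V E g := by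
  funext p
  simp only [inflCochain₂, Pi.sub_apply]
  rfl

variable {q V E}

lemma IsAbsInflation.add {f g : cocycles₂ (L.unitsRep (fixedFld q V) E)}
    {c d : ↥(levelCocycles₂ (lHom q V) (lModOn q V))}
    (hf : IsAbsInflation q V E f c) (hg : IsAbsInflation q V E g d) :
    IsAbsInflation q V E (f + g) (c + d) := by
  unfold IsAbsInflation at *
  have h1 : ((f + g : cocycles₂ (L.unitsRep (fixedFld q V) E)) :
      (E ≃ₐ[fixedFld q V] E) × (E ≃ₐ[fixedFld q V] E) → L.unitsRep (fixedFld q V) E) =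
      (f : (E ≃ₐ[fixedFld q V] E) × (E ≃ₐ[fixedFld q V] E) → L.unitsRep (fixedFld q V) E) +
      (g : (E ≃ₐ[fixedFld q V] E) × (E ≃ₐ[fixedFld q V] E) → L.unitsRep (fixedFld q V) E) := rfl
  rw [Submodule.coe_add, h1, inflCochain₂_add, hf, hg]

lemma IsAbsInflation.sub {f g : cocycles₂ (L.unitsRep (fixedFld q V) E)}
    {c d : ↥(levelCocycles₂ (lHom q V) (lModOn q V))}
    (hf : IsAbsInflation q V E f c) (hg : IsAbsInflation q V E g d) :
    IsAbsInflation q V E (f - g) (c - d) := by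
  unfold IsAbsInflation at *
  have h1 : ((f - g : cocycles₂ (L.unitsRep (fixedFld q V) E)) :
      (E ≃ₐ[fixedFld q V] E) × (E ≃ₐ[fixedFld q V] E) → L.unitsRep (fixedFld q V) E) =
      (f : (E ≃ₐ[fixedFld q V] E) × (E ≃ₐ[fixedFld q V] E) → L.unitsRep (fixedFld q V) E) -
      (g : (E ≃ₐ[fixedFld q V] E) × (E ≃ₐ[fixedFld q V] E) → L.unitsRep (fixedFld q V) E) := rfl
  rw [Submodule.coe_sub, h1, inflCochain₂_sub, hf, hg]

end Linear

/-! ### Independence of the finite level -/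

section Core

variable {q}
variable (J : L.InvFamily) (hO : OpenSpec) (hD : DescentSpec) (hDn : DownSpec) (hRf : RefineSpec)
variable (V : Subgroup (PadicAlgCl q ≃ₐ[ℚ_[q]] PadicAlgCl q))

include hO in
lemma isLocalFld_fixedFld (hV : IsOpenL q V) : L.IsLocalFld (fixedFld q V) :=
  haveI := (hO q V hV).1
  L.isLocalFld_intermediateField63 q (fixedFld q V)

lemma isGalois_sup (E₁ E₂ : IntermediateField (fixedFld q V) (PadicAlgCl q))
    [IsGalois (fixedFld q V) E₁] [IsGalois (fixedFld q V) E₂] :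
    IsGalois (fixedFld q V) ↥(E₁ ⊔ E₂) :=
  IsGalois.mk

include hDn hRf in
/-- Two finite-level representatives of the same level cocycle have the same invariant. -/
lemma inv_eq_of_isAbsInflation [L.IsLocalFld (fixedFld q V)] (hV : IsOpenL q V)
    (c : ↥(levelCocycles₂ (lHom q V) (lModOn q V)))
    (E₁ : IntermediateField (fixedFld q V) (PadicAlgCl q))
    [FiniteDimensional (fixedFld q V) E₁] [IsGalois (fixedFld q V) E₁]
    (f₁ : cocycles₂ (L.unitsRep (fixedFld q V) E₁))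
    (E₂ : IntermediateField (fixedFld q V) (PadicAlgCl q))
    [FiniteDimensional (fixedFld q V) E₂] [IsGalois (fixedFld q V) E₂]
    (f₂ : cocycles₂ (L.unitsRep (fixedFld q V) E₂))
    (h₁ : IsAbsInflation q V E₁ f₁ c) (h₂ : IsAbsInflation q V E₂ f₂ c) :
    J.inv (fixedFld q V) E₁ (L.cls f₁) = J.inv (fixedFld q V) E₂ (L.cls f₂) := by
  have : IsGalois (fixedFld q V) ↥(E₁ ⊔ E₂) := isGalois_sup V E₁ E₂
  obtain ⟨f₁', hf₁', hJ₁⟩ := hRf q V E₁ (E₁ ⊔ E₂) le_sup_left f₁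
  obtain ⟨f₂', hf₂', hJ₂⟩ := hRf q V E₂ (E₁ ⊔ E₂) le_sup_right f₂
  have h0 : IsAbsInflation q V (E₁ ⊔ E₂) (f₁' - f₂') (c - c) := (hf₁' c h₁).sub (hf₂' c h₂)
  have hcob : ((c - c : ↥(levelCocycles₂ (lHom q V) (lModOn q V))) : ↥V × ↥V → lModOn q V) ∈
      levelCoboundaries₂ (lHom q V) (lModOn q V) := by
    rw [sub_self]
    exact Submodule.zero_mem _
  have hcls : L.cls (f₁' - f₂') = 0 := hDn q V hV (E₁ ⊔ E₂) (f₁' - f₂') (c - c) h0 hcob
  have hcls' : L.cls f₁' = L.cls f₂' := by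
    have : L.cls (f₁' - f₂') = L.cls f₁' - L.cls f₂' := map_sub _ _ _
    rw [this, sub_eq_zero] at hcls
    exact hcls
  rw [← hJ₁ J, ← hJ₂ J, hcls']

include hD hDn hRf in
lemma exists_inv_value [L.IsLocalFld (fixedFld q V)] (hV : IsOpenL q V)
    (c : ↥(levelCocycles₂ (lHom q V) (lModOn q V))) :
    ∃ a : AddCircle (1 : ℚ), ∀ (E : IntermediateField (fixedFld q V) (PadicAlgCl q))
      [FiniteDimensional (fixedFld q V) E] [IsGalois (fixedFld q V) E]
      (f : cocycles₂ (L.unitsRep (fixedFld q V) E)),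
      IsAbsInflation q V E f c → J.inv (fixedFld q V) E (L.cls f) = a := by
  obtain ⟨E₀, hfd, hgal, f₀, -, h₀⟩ := hD q V hV c ⊥ inferInstance
  exact ⟨J.inv (fixedFld q V) E₀ (L.cls f₀), fun E _ _ f hf =>
    inv_eq_of_isAbsInflation J hDn hRf V hV c E f E₀ f₀ hf h₀⟩

/-- The invariant of a level cocycle on an open subgroup `V`. -/
def invCoc [L.IsLocalFld (fixedFld q V)] (hV : IsOpenL q V)
    (c : ↥(levelCocycles₂ (lHom q V) (lModOn q V))) : AddCircle (1 : ℚ) :=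
  Classical.choose (exists_inv_value J hD hDn hRf V hV c)

lemma invCoc_eq [L.IsLocalFld (fixedFld q V)] (hV : IsOpenL q V)
    (c : ↥(levelCocycles₂ (lHom q V) (lModOn q V)))
    (E : IntermediateField (fixedFld q V) (PadicAlgCl q))
    [FiniteDimensional (fixedFld q V) E] [IsGalois (fixedFld q V) E]
    (f : cocycles₂ (L.unitsRep (fixedFld q V) E)) (hf : IsAbsInflation q V E f c) :
    invCoc J hD hDn hRf V hV c = J.inv (fixedFld q V) E (L.cls f) :=
  (Classical.choose_spec (exists_inv_value J hD hDn hRf V hV c) E f hf).symm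

lemma invCoc_add [L.IsLocalFld (fixedFld q V)] (hV : IsOpenL q V)
    (c₁ c₂ : ↥(levelCocycles₂ (lHom q V) (lModOn q V))) :
    invCoc J hD hDn hRf V hV (c₁ + c₂) =
      invCoc J hD hDn hRf V hV c₁ + invCoc J hD hDn hRf V hV c₂ := by
  obtain ⟨E₁, hfd₁, hgal₁, f₁, -, h₁⟩ := hD q V hV c₁ ⊥ inferInstance
  obtain ⟨E₂, hfd₂, hgal₂, f₂, -, h₂⟩ := hD q V hV c₂ ⊥ inferInstance
  have : IsGalois (fixedFld q V) ↥(E₁ ⊔ E₂) := isGalois_sup V E₁ E₂
  obtain ⟨f₁', hf₁', hJ₁⟩ := hRf q V E₁ (E₁ ⊔ E₂) le_sup_left f₁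
  obtain ⟨f₂', hf₂', hJ₂⟩ := hRf q V E₂ (E₁ ⊔ E₂) le_sup_right f₂
  have e₁ := invCoc_eq J hD hDn hRf V hV (c₁ + c₂) (E₁ ⊔ E₂) (f₁' + f₂')
    ((hf₁' c₁ h₁).add (hf₂' c₂ h₂))
  have e₂ := invCoc_eq J hD hDn hRf V hV c₁ E₁ f₁ h₁
  have e₃ := invCoc_eq J hD hDn hRf V hV c₂ E₂ f₂ h₂
  have e₄ : L.cls (f₁' + f₂') = L.cls f₁' + L.cls f₂' := map_add _ _ _
  have e₅ : J.inv (fixedFld q V) ↥(E₁ ⊔ E₂) (L.cls f₁' + L.cls f₂') =
      J.inv (fixedFld q V) ↥(E₁ ⊔ E₂) (L.cls f₁') + J.inv (fixedFld q V) ↥(E₁ ⊔ E₂) (L.cls f₂') :=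
    map_add _ _ _
  calc invCoc J hD hDn hRf V hV (c₁ + c₂)
      = J.inv (fixedFld q V) ↥(E₁ ⊔ E₂) (L.cls (f₁' + f₂')) := e₁
    _ = J.inv (fixedFld q V) ↥(E₁ ⊔ E₂) (L.cls f₁') +
          J.inv (fixedFld q V) ↥(E₁ ⊔ E₂) (L.cls f₂') := by rw [e₄, e₅]
    _ = J.inv (fixedFld q V) E₁ (L.cls f₁) + J.inv (fixedFld q V) E₂ (L.cls f₂) := by
          rw [hJ₁ J, hJ₂ J]
    _ = invCoc J hD hDn hRf V hV c₁ + invCoc J hD hDn hRf V hV c₂ := by rw [e₂, e₃]

lemma invCoc_eq_zero_of_mem [L.IsLocalFld (fixedFld q V)] (hV : IsOpenL q V)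
    (c : ↥(levelCocycles₂ (lHom q V) (lModOn q V)))
    (hc : (c : ↥V × ↥V → lModOn q V) ∈ levelCoboundaries₂ (lHom q V) (lModOn q V)) :
    invCoc J hD hDn hRf V hV c = 0 := by
  obtain ⟨E, hfd, hgal, f, -, h⟩ := hD q V hV c ⊥ inferInstance
  rw [invCoc_eq J hD hDn hRf V hV c E f h, hDn q V hV E f c h hc, map_zero]

/-- The invariant as a linear map on level cocycles. -/
def invLin [L.IsLocalFld (fixedFld q V)] (hV : IsOpenL q V) :
    ↥(levelCocycles₂ (lHom q V) (lModOn q V)) →ₗ[ℤ] AddCircle (1 : ℚ) :=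
  (AddMonoidHom.mk' (invCoc J hD hDn hRf V hV) (invCoc_add J hD hDn hRf V hV)).toIntLinearMap

/-- The invariant map on the absolute Brauer group of an open subgroup. -/
def invOpen [L.IsLocalFld (fixedFld q V)] (hV : IsOpenL q V) :
    lBr q V →ₗ[ℤ] AddCircle (1 : ℚ) :=
  Submodule.liftQ _ (invLin J hD hDn hRf V hV) (fun c hc =>
    invCoc_eq_zero_of_mem J hD hDn hRf V hV c hc)

lemma invOpen_mk [L.IsLocalFld (fixedFld q V)] (hV : IsOpenL q V)
    (c : ↥(levelCocycles₂ (lHom q V) (lModOn q V))) :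
    invOpen J hD hDn hRf V hV (continuousH2π (lHom q V) (lModOn q V) c) =
      invCoc J hD hDn hRf V hV c := rfl

end Core

/-! ### The invariant maps for all subgroups and the `LocalInvSystem` -/

section All

variable (J : L.InvFamily) (hO : OpenSpec) (hD : DescentSpec) (hDn : DownSpec) (hRf : RefineSpec)

open Classical in
/-- The invariant map on `lBr q V` (zero if `V` is not open). -/
def invAll (q : ℕ) [Fact q.Prime] (V : Subgroup (PadicAlgCl q ≃ₐ[ℚ_[q]] PadicAlgCl q)) :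
    lBr q V →+ AddCircle (1 : ℚ) :=
  if hV : IsOpenL q V then
    haveI := isLocalFld_fixedFld hO V hV
    (invOpen J hD hDn hRf V hV).toAddMonoidHom
  else 0

variable {q}

lemma invAll_mk (V : Subgroup (PadicAlgCl q ≃ₐ[ℚ_[q]] PadicAlgCl q))
    [L.IsLocalFld (fixedFld q V)] (hV : IsOpenL q V)
    (c : ↥(levelCocycles₂ (lHom q V) (lModOn q V))) :
    invAll J hO hD hDn hRf q V (continuousH2π (lHom q V) (lModOn q V) c) =
      invCoc J hD hDn hRf V hV c := by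
  unfold invAll
  rw [dif_pos hV]
  rfl

lemma isOpenL_mono {V V' : Subgroup (PadicAlgCl q ≃ₐ[ℚ_[q]] PadicAlgCl q)} (h : V' ≤ V)
    (hV' : IsOpenL q V') : IsOpenL q V := by
  obtain ⟨E, hE, hle⟩ := hV'
  exact ⟨E, hE, hle.trans h⟩

end All

section Fields

variable (J : L.InvFamily) (hO : OpenSpec) (hD : DescentSpec) (hUp : UpSpec)
  (hDn : DownSpec) (hRf : RefineSpec) (hRs : ResSpec) (hUr : UnramSpec) (hUf : UnifSpec)
variable {q}

include hUp in
lemma invAll_injective (V : Subgroup (PadicAlgCl q ≃ₐ[ℚ_[q]] PadicAlgCl q))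
    (hV : IsOpenL q V) : Function.Injective (invAll J hO hD hDn hRf q V) := by
  have := isLocalFld_fixedFld hO V hV
  rw [injective_iff_map_eq_zero]
  intro x hx
  obtain ⟨c, rfl⟩ := Submodule.mkQ_surjective _ x
  have hx' : invAll J hO hD hDn hRf q V (continuousH2π (lHom q V) (lModOn q V) c) = 0 := hx
  rw [invAll_mk J hO hD hDn hRf V hV c] at hx'
  obtain ⟨E, hfd, hgal, f, -, h⟩ := hD q V hV c ⊥ inferInstance
  rw [invCoc_eq J hD hDn hRf V hV c E f h] at hx'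
  have hcls : L.cls f = 0 := J.inv_injective (fixedFld q V) E (by rw [hx', map_zero])
  exact (continuousH2π_eq_zero_iff (lHom q V) (lModOn q V) c).2 (hUp q V hV E f c h hcls)

/-- The restriction of a level cocycle to a subgroup. -/
def resCoc {V V' : Subgroup (PadicAlgCl q ≃ₐ[ℚ_[q]] PadicAlgCl q)} (h : V' ≤ V) :
    ↥(levelCocycles₂ (lHom q V) (lModOn q V)) →ₗ[ℤ]
      ↥(levelCocycles₂ (lHom q V') (lModOn q V')) :=
  levelCocycles₂Map (rH := lHom q V) (rG := lHom q V') (Subgroup.inclusion h)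
    (fun _ => rfl) (LinearMap.id : lModOn q V →ₗ[ℤ] lModOn q V') (fun _ _ => rfl)

lemma resCoc_apply {V V' : Subgroup (PadicAlgCl q ≃ₐ[ℚ_[q]] PadicAlgCl q)} (h : V' ≤ V)
    (c : ↥(levelCocycles₂ (lHom q V) (lModOn q V))) (g k : ↥V') :
    (resCoc h c : ↥V' × ↥V' → lModOn q V') (g, k) =
      (c : ↥V × ↥V → lModOn q V) (Subgroup.inclusion h g, Subgroup.inclusion h k) := rfl

lemma lRes_mk {V V' : Subgroup (PadicAlgCl q ≃ₐ[ℚ_[q]] PadicAlgCl q)} (h : V' ≤ V)
    (c : ↥(levelCocycles₂ (lHom q V) (lModOn q V))) :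
    lRes q h (continuousH2π (lHom q V) (lModOn q V) c) =
      continuousH2π (lHom q V') (lModOn q V') (resCoc h c) := rfl

include hRs in
lemma invAll_res (V V' : Subgroup (PadicAlgCl q ≃ₐ[ℚ_[q]] PadicAlgCl q)) (h : V' ≤ V)
    (hV' : IsOpenL q V') (x : lBr q V) :
    invAll J hO hD hDn hRf q V' (lRes q h x) =
      V'.relIndex V • invAll J hO hD hDn hRf q V x := by
  have hV : IsOpenL q V := isOpenL_mono h hV'
  have := isLocalFld_fixedFld hO V hV
  have := isLocalFld_fixedFld hO V' hV'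
  obtain ⟨c, hc⟩ := Submodule.mkQ_surjective _ x
  have hx : x = continuousH2π (lHom q V) (lModOn q V) c := hc.symm
  obtain ⟨E, hfd, hgal, f, E', hfd', hgal', f', hf, hf', hJ⟩ :=
    hRs q V V' h hV' c (resCoc h c) (resCoc_apply h c)
  have e2 : invAll J hO hD hDn hRf q V (continuousH2π (lHom q V) (lModOn q V) c) =
      J.inv (fixedFld q V) E (L.cls f) := by
    rw [invAll_mk J hO hD hDn hRf V hV]
    exact invCoc_eq J hD hDn hRf V hV c E f hf
  have e0 : invAll J hO hD hDn hRf q V' (continuousH2π (lHom q V') (lModOn q V') (resCoc h c)) =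
      J.inv (fixedFld q V') E' (L.cls f') := by
    rw [invAll_mk J hO hD hDn hRf V' hV']
    exact invCoc_eq J hD hDn hRf V' hV' _ E' f' hf'
  have e1 : invAll J hO hD hDn hRf q V' (lRes q h x) =
      invAll J hO hD hDn hRf q V' (continuousH2π (lHom q V') (lModOn q V') (resCoc h c)) :=
    congrArg (invAll J hO hD hDn hRf q V') ((congrArg (lRes q h) hx).trans (lRes_mk h c))
  have e3 : V'.relIndex V • invAll J hO hD hDn hRf q V x =
      V'.relIndex V • J.inv (fixedFld q V) E (L.cls f) :=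
    congrArg (fun y => V'.relIndex V • y) ((congrArg (invAll J hO hD hDn hRf q V) hx).trans e2)
  exact (e1.trans e0).trans ((hJ J).trans e3.symm)

include hUr in
lemma invAll_unram (V : Subgroup (PadicAlgCl q ≃ₐ[ℚ_[q]] PadicAlgCl q)) (hV : IsOpenL q V)
    (c : ↥(levelCocycles₂ (lHom q V) (lModOn q V)))
    (h1 : ∀ g h : ↥V, ‖((Additive.toMul ((c : ↥V × ↥V → lModOn q V) (g, h)) :
        (PadicAlgCl q)ˣ) : PadicAlgCl q)‖ = 1)
    (h2 : ∀ g h i j : ↥V, IsInertial q (i : PadicAlgCl q ≃ₐ[ℚ_[q]] PadicAlgCl q) →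
        IsInertial q (j : PadicAlgCl q ≃ₐ[ℚ_[q]] PadicAlgCl q) →
        (c : ↥V × ↥V → lModOn q V) (g * i, h * j) = (c : ↥V × ↥V → lModOn q V) (g, h))
    (h3 : ∀ g h i : ↥V, IsInertial q (i : PadicAlgCl q ≃ₐ[ℚ_[q]] PadicAlgCl q) →
        (lModOn q V).ρ i ((c : ↥V × ↥V → lModOn q V) (g, h)) =
          (c : ↥V × ↥V → lModOn q V) (g, h)) :
    invAll J hO hD hDn hRf q V (continuousH2π (lHom q V) (lModOn q V) c) = 0 := by
  have hc := hUr q V hV c h1 h2 h3
  rw [(continuousH2π_eq_zero_iff (lHom q V) (lModOn q V) c).2 hc, map_zero]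

include hUf in
lemma invAll_unif (V : Subgroup (PadicAlgCl q ≃ₐ[ℚ_[q]] PadicAlgCl q)) (hV : IsOpenL q V)
    (n : ℕ) [NeZero n] (χ : ↥V →* Multiplicative (ZMod n))
    (hχ : ∀ τ : ↥V, IsInertial q (τ : PadicAlgCl q ≃ₐ[ℚ_[q]] PadicAlgCl q) → χ τ = 1)
    (φ : PadicAlgCl q ≃ₐ[ℚ_[q]] PadicAlgCl q) (hφ : IsFrobenius q V φ)
    (π : (PadicAlgCl q)ˣ) (hπ : IsUniformizer q V (π : PadicAlgCl q))
    (c : ↥(levelCocycles₂ (lHom q V) (lModOn q V)))
    (hc : IsCupChar (toLMod q V π) χ (c : ↥V × ↥V → lModOn q V)) :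
    invAll J hO hD hDn hRf q V (continuousH2π (lHom q V) (lModOn q V) c) =
      (((((Multiplicative.toAdd (χ ⟨φ, hφ.1⟩)).val : ℚ) / (n : ℚ) : ℚ)) : AddCircle (1 : ℚ)) := by
  have := isLocalFld_fixedFld hO V hV
  obtain ⟨E, hfd, hgal, f, hf, hval⟩ := hUf q V hV n χ hχ φ hφ π hπ c hc J
  rw [invAll_mk J hO hD hDn hRf V hV c, invCoc_eq J hD hDn hRf V hV c E f hf]
  exact hval

end Fields

/-- **REC-LOC**: the absolute local invariant system built from the finite-level invariant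
maps of layer L. -/
def localInvSystem_of (J : L.InvFamily) (hO : OpenSpec) (hD : DescentSpec) (hUp : UpSpec)
    (hDn : DownSpec) (hRf : RefineSpec) (hRs : ResSpec) (hUr : UnramSpec) (hUf : UnifSpec) :
    LocalInvSystem where
  inv q _ V := invAll J hO hD hDn hRf q V
  inv_injective _ _ V hV := invAll_injective J hO hD hUp hDn hRf V hV
  inv_res _ _ V V' h hV' x := invAll_res J hO hD hDn hRf hRs V V' h hV' x
  inv_unram _ _ V hV c h1 h2 h3 := invAll_unram J hO hD hDn hRf hUr V hV c h1 h2 h3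
  inv_unif _ _ V hV n _ χ hχ φ hφ π hπ c hc :=
    invAll_unif J hO hD hDn hRf hUf V hV n χ hχ φ hφ π hπ c hc

/-- `Nonempty` form. -/
theorem nonempty_localInvSystem_of (hJ : L.InvSpec) (hO : OpenSpec) (hD : DescentSpec)
    (hUp : UpSpec) (hDn : DownSpec) (hRf : RefineSpec) (hRs : ResSpec) (hUr : UnramSpec)
    (hUf : UnifSpec) : Nonempty LocalInvSystem :=
  hJ.elim fun J => ⟨localInvSystem_of J hO hD hUp hDn hRf hRs hUr hUf⟩

end Fermat.Agent.S55.G.Rec.Loc
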