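import Fermat.Agent.S55.G.Rec.Loc.Spec
import Fermat.Agent.S55.L.Inv481.Towers

/-!
# S55 / G / REC / LOC : leaf LOC-REF (`RefineSpec`)  — helper63

Refinement of the finite level: for `E ≤ E'` (finite Galois over `K_V`) a cocycle `f` on
`Gal(E/K_V)` has the inflation `f'` on `Gal(E'/K_V)`; `f` and `f'` have the same absolute
inflation to `V` and the same invariant (`InvFamily.inv_inflation`).
-/

set_option autoImplicit false

noncomputable section

namespace Fermat.Agent.S55.G.Rec.Loc.H63

open groupCohomology

variable (q : ℕ) [Fact q.Prime]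

/-- Restricting first to `E'` and then to `E ≤ E'` is restricting to `E`. -/
lemma restrict_resHom63 (V : Subgroup (PadicAlgCl q ≃ₐ[ℚ_[q]] PadicAlgCl q))
    (E E' : IntermediateField (fixedFld q V) (PadicAlgCl q))
    [Normal (fixedFld q V) E] [Normal (fixedFld q V) E'] (_hEE' : E ≤ E')
    [Algebra E E'] [IsScalarTower (fixedFld q V) E E']
    (halg : ∀ x : E, ((algebraMap E E' x : E') : PadicAlgCl q) = (x : PadicAlgCl q))
    (g : ↥V) :
    AlgEquiv.restrictNormalHom (F := fixedFld q V) (K₁ := E') E (resHom q V E' g) =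
      resHom q V E g := by
  ext x
  rw [← halg]
  have h1 : algebraMap E E'
      (AlgEquiv.restrictNormalHom (F := fixedFld q V) (K₁ := E') E (resHom q V E' g) x) =
        (resHom q V E' g) (algebraMap E E' x) :=
    AlgEquiv.restrictNormal_commutes _ E x
  rw [h1, resHom_apply_coe, resHom_apply_coe, halg]

theorem refine63 : RefineSpec := by
  intro q _ V _ E E' _ _ _ _ hEE' f
  let _ : Algebra E E' := (IntermediateField.inclusion hEE').toRingHom.toAlgebra
  have : IsScalarTower (fixedFld q V) E E' :=
    IsScalarTower.of_algebraMap_eq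
      (fun x => ((IntermediateField.inclusion hEE').commutes x).symm)
  have halg : ∀ x : E, ((algebraMap E E' x : E') : PadicAlgCl q) = (x : PadicAlgCl q) :=
    fun x => rfl
  refine ⟨(L.Inv481.inflPair (fixedFld q V) E E').pullCocycle f, ?_, ?_⟩
  · intro c hc
    unfold IsAbsInflation at hc ⊢
    rw [hc]
    funext ⟨g, h⟩
    have h1 := L.Inv481.GalPair.isPull_pullCocycle (L.Inv481.inflPair (fixedFld q V) E E') f
      (resHom q V E' g) (resHom q V E' h)
    show Additive.ofMul (unitsIncl q V E (Additive.toMul
        ((f : (E ≃ₐ[fixedFld q V] E) × (E ≃ₐ[fixedFld q V] E) → L.unitsRep (fixedFld q V) E)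
          (resHom q V E g, resHom q V E h)))) =
      Additive.ofMul (unitsIncl q V E' (Additive.toMul
        (((L.Inv481.inflPair (fixedFld q V) E E').pullCocycle f :
          (E' ≃ₐ[fixedFld q V] E') × (E' ≃ₐ[fixedFld q V] E') → L.unitsRep (fixedFld q V) E')
          (resHom q V E' g, resHom q V E' h))))
    rw [h1]
    have e1 : (L.Inv481.inflPair (fixedFld q V) E E').f (resHom q V E' g) = resHom q V E g :=
      restrict_resHom63 q V E E' hEE' halg g
    have e2 : (L.Inv481.inflPair (fixedFld q V) E E').f (resHom q V E' h) = resHom q V E h :=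
      restrict_resHom63 q V E E' hEE' halg h
    rw [e1, e2]
    rfl
  · intro J
    exact J.inv_inflation (fixedFld q V) E E' f _
      ((L.Inv481.isInflation_iff_isPull _ _).2 (L.Inv481.GalPair.isPull_pullCocycle _ _))

end Fermat.Agent.S55.G.Rec.Loc.H63
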