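import Fermat.Agent.S55.G.Rec.Loc.Glue
import Fermat.Agent.S55.G.Rec.Loc.OpenH478
import Fermat.Agent.S55.G.Rec.Loc.DescentH894
import Fermat.Agent.S55.G.Rec.Loc.UpH839
import Fermat.Agent.S55.G.Rec.Loc.DownH363
import Fermat.Agent.S55.G.Rec.Loc.RefineH123
import Fermat.Agent.S55.G.Rec.Loc.ResH480
import Fermat.Agent.S55.G.Rec.Loc.H483.UnramClosed
import Fermat.Agent.S55.G.Rec.Loc.UnifH544
import Fermat.Agent.S55.L.InvClosed

/-!
# S55 / G / REC / LOC — the block closed (helper544)

All eight leaves of `Loc/Spec.lean` and the finite-level invariant family `L.InvSpec` are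
theorems on main; this file feeds them to `Loc/Glue.lean`:

* `openSpec544`, `descentSpec544`, `upSpec544`, `downSpec544`, `refineSpec544`, `resSpec544`,
  `unramSpec544`, `unifSpec544` : the eight leaf Specs, unconditional, in one place;
* `nonempty_localInvSystem544 : Nonempty LocalInvSystem` — the absolute local invariant system
  consumed by `G/Rec/Spec.lean` (`ReciprocitySpec (I : LocalInvSystem) p`);
* `localInvSystem544 : LocalInvSystem` — a chosen one (noncomputable).
-/

namespace Fermat.Agent.S55.G.Rec.Loc.H544

theorem openSpec544 : OpenSpec := H478.openSpec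

theorem descentSpec544 : DescentSpec := H894.descent

theorem upSpec544 : UpSpec := H839.up

theorem downSpec544 : DownSpec := H363.down

theorem refineSpec544 : RefineSpec := H123.refine123

theorem resSpec544 : ResSpec := H480.res_of H478.openSpec H894.descent

theorem unramSpec544 : UnramSpec := H483.unram

theorem unifSpec544 : UnifSpec := unif

/-- **REC-LOC closed**: an absolute local invariant system exists. -/
theorem nonempty_localInvSystem544 : Nonempty LocalInvSystem :=
  nonempty_localInvSystem_of L.Closed.inv openSpec544 descentSpec544 upSpec544 downSpec544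
    refineSpec544 resSpec544 unramSpec544 unifSpec544

/-- A chosen absolute local invariant system. -/
noncomputable def localInvSystem544 : LocalInvSystem :=
  nonempty_localInvSystem544.some

end Fermat.Agent.S55.G.Rec.Loc.H544
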