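import Fermat.Agent.S55.G.Rec.Spec
import Fermat.Agent.S55.L.SpecInv

/-!
# S55 / layer G / block REC / sub-block LOC : definitions

Bridge between the two frozen local interfaces

* `Fermat.Agent.S55.L.InvFamily` (helper54): invariant maps `inv_{L/K}` on Mathlib's
  `H2 (unitsRep K L)` for FINITE Galois extensions `L/K` of abstract local fields;
* `Fermat.Agent.S55.G.Rec.LocalInvSystem` (helper1): invariant maps on the ABSOLUTE Brauer groups
  `lBr q V = H²_cont(V, ℚ̄_qˣ)` (level-constant cochains on `V ≤ Gal(ℚ̄_q/ℚ_q)`).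

Finite levels of `V`: `K_V := fixedFld q V` (fixed field of `V` in `PadicAlgCl q`) and the
intermediate fields `E : IntermediateField K_V (PadicAlgCl q)`, finite Galois over `K_V`.
`resHom q V E : V →* Gal(E/K_V)` is restriction, `IsAbsInflation q V E f c` says that the level
cocycle `c` on `V` is the inflation of the finite-level cocycle `f` on `Gal(E/K_V)`.
-/

set_option autoImplicit false

noncomputable section

namespace Fermat.Agent.S55.G.Rec.Loc

open groupCohomology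

variable (q : ℕ) [Fact q.Prime]

/-- The fixed field `K_V` of `V ≤ Gal(ℚ̄_q/ℚ_q)`. -/
abbrev fixedFld (V : Subgroup (PadicAlgCl q ≃ₐ[ℚ_[q]] PadicAlgCl q)) :
    IntermediateField ℚ_[q] (PadicAlgCl q) :=
  IntermediateField.fixedField V

lemma le_fixingSubgroup_fixedFld (V : Subgroup (PadicAlgCl q ≃ₐ[ℚ_[q]] PadicAlgCl q)) :
    V ≤ (fixedFld q V).fixingSubgroup :=
  (IntermediateField.le_iff_le V (fixedFld q V)).1 le_rfl

/-- `V → Gal(ℚ̄_q / K_V)`. -/
def toAbsGal (V : Subgroup (PadicAlgCl q ≃ₐ[ℚ_[q]] PadicAlgCl q)) :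
    ↥V →* (PadicAlgCl q ≃ₐ[fixedFld q V] PadicAlgCl q) :=
  (IntermediateField.fixingSubgroupEquiv (fixedFld q V)).toMonoidHom.comp
    (Subgroup.inclusion (le_fixingSubgroup_fixedFld q V))

@[simp] lemma toAbsGal_apply (V : Subgroup (PadicAlgCl q ≃ₐ[ℚ_[q]] PadicAlgCl q)) (σ : ↥V)
    (x : PadicAlgCl q) : toAbsGal q V σ x = (σ : PadicAlgCl q ≃ₐ[ℚ_[q]] PadicAlgCl q) x := rfl

/-- Restriction `V → Gal(E / K_V)` for `E / K_V` normal. -/
def resHom (V : Subgroup (PadicAlgCl q ≃ₐ[ℚ_[q]] PadicAlgCl q))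
    (E : IntermediateField (fixedFld q V) (PadicAlgCl q)) [Normal (fixedFld q V) E] :
    ↥V →* (E ≃ₐ[fixedFld q V] E) :=
  (AlgEquiv.restrictNormalHom E).comp (toAbsGal q V)

lemma resHom_apply_coe (V : Subgroup (PadicAlgCl q ≃ₐ[ℚ_[q]] PadicAlgCl q))
    (E : IntermediateField (fixedFld q V) (PadicAlgCl q)) [Normal (fixedFld q V) E]
    (σ : ↥V) (x : E) :
    ((resHom q V E σ x : E) : PadicAlgCl q) =
      (σ : PadicAlgCl q ≃ₐ[ℚ_[q]] PadicAlgCl q) (x : PadicAlgCl q) := by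
  change algebraMap E (PadicAlgCl q) (AlgEquiv.restrictNormal (toAbsGal q V σ) E x) = _
  rw [AlgEquiv.restrictNormal_commutes]
  rfl

/-- The inclusion `Eˣ → ℚ̄_qˣ`. -/
def unitsIncl (V : Subgroup (PadicAlgCl q ≃ₐ[ℚ_[q]] PadicAlgCl q))
    (E : IntermediateField (fixedFld q V) (PadicAlgCl q)) : (↥E)ˣ →* (PadicAlgCl q)ˣ :=
  Units.map (algebraMap E (PadicAlgCl q) : E →* PadicAlgCl q)

/-- Inflation of finite-level 1-cochains to `V`. -/
def inflCochain₁ (V : Subgroup (PadicAlgCl q ≃ₐ[ℚ_[q]] PadicAlgCl q))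
    (E : IntermediateField (fixedFld q V) (PadicAlgCl q)) [Normal (fixedFld q V) E]
    (b : (E ≃ₐ[fixedFld q V] E) → L.unitsRep (fixedFld q V) E) : ↥V → lModOn q V :=
  fun g => Additive.ofMul (unitsIncl q V E (Additive.toMul (b (resHom q V E g))))

/-- Inflation of finite-level 2-cochains to `V`. -/
def inflCochain₂ (V : Subgroup (PadicAlgCl q ≃ₐ[ℚ_[q]] PadicAlgCl q))
    (E : IntermediateField (fixedFld q V) (PadicAlgCl q)) [Normal (fixedFld q V) E]
    (f : (E ≃ₐ[fixedFld q V] E) × (E ≃ₐ[fixedFld q V] E) → L.unitsRep (fixedFld q V) E) :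
    ↥V × ↥V → lModOn q V :=
  fun p => Additive.ofMul
    (unitsIncl q V E (Additive.toMul (f (resHom q V E p.1, resHom q V E p.2))))

/-- The level cocycle `c` on `V` is the inflation of the finite-level cocycle `f` on
`Gal(E / K_V)`. -/
def IsAbsInflation (V : Subgroup (PadicAlgCl q ≃ₐ[ℚ_[q]] PadicAlgCl q))
    (E : IntermediateField (fixedFld q V) (PadicAlgCl q)) [Normal (fixedFld q V) E]
    (f : cocycles₂ (L.unitsRep (fixedFld q V) E))
    (c : ↥(levelCocycles₂ (lHom q V) (lModOn q V))) : Prop :=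
  (c : ↥V × ↥V → lModOn q V) =
    inflCochain₂ q V E (f : (E ≃ₐ[fixedFld q V] E) × (E ≃ₐ[fixedFld q V] E) →
      L.unitsRep (fixedFld q V) E)

end Fermat.Agent.S55.G.Rec.Loc
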