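import Fermat.Agent.S55.G.Rec.Loc.Spec

/-!
# S55 / layer G / block REC / sub-block LOC : leaf LOC-FD (`OpenSpec`)

The fixed field of an open subgroup `V ≤ Gal(ℚ̄_q/ℚ_q)` is finite over `ℚ_q`, and `V` is the full
fixing subgroup of its fixed field (infinite Galois correspondence for closed subgroups; an open
subgroup is closed).
-/

set_option autoImplicit false
set_option linter.style.haveILetI false

noncomputable section

namespace Fermat.Agent.S55.G.Rec.Loc

/-- `ℚ̄_q / ℚ_q` is Galois. -/
theorem isGalois_padicAlgCl_h510 (q : ℕ) [Fact q.Prime] : IsGalois ℚ_[q] (PadicAlgCl q) := by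
  haveI : Algebra.IsAlgebraic ℚ_[q] (PadicAlgCl q) := by
    unfold PadicAlgCl; infer_instance
  haveI : Algebra.IsSeparable ℚ_[q] (PadicAlgCl q) := Algebra.IsAlgebraic.isSeparable_of_perfectField
  haveI : Normal ℚ_[q] (PadicAlgCl q) := by
    unfold PadicAlgCl; infer_instance
  exact ⟨⟩

/-- **LOC-FD**. -/
theorem openSpec_h510 : OpenSpec := by
  intro q _ V hV
  obtain ⟨E, hE, hEV⟩ := hV
  haveI := isGalois_padicAlgCl_h510 q
  haveI := hE
  have hle : fixedFld q V ≤ E := by
    have h1 : IntermediateField.fixedField V ≤ IntermediateField.fixedField E.fixingSubgroup :=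
      IntermediateField.fixedField_antitone hEV
    rwa [InfiniteGalois.fixedField_fixingSubgroup] at h1
  refine ⟨?_, ?_⟩
  · exact Module.Finite.of_injective (IntermediateField.inclusion hle).toLinearMap
      (IntermediateField.inclusion hle).injective
  · have hopen : IsOpen (V : Set (PadicAlgCl q ≃ₐ[ℚ_[q]] PadicAlgCl q)) :=
      Subgroup.isOpen_mono hEV (IntermediateField.fixingSubgroup_isOpen E)
    have hclosed : IsClosed (V : Set (PadicAlgCl q ≃ₐ[ℚ_[q]] PadicAlgCl q)) :=
      Subgroup.isClosed_of_isOpen V hopen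
    exact InfiniteGalois.fixingSubgroup_fixedField ⟨V, hclosed⟩

end Fermat.Agent.S55.G.Rec.Loc
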