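import Fermat.Agent.S55.G.Rec.Loc.Defs

/-!
# S55 / layer G / block REC / sub-block LOC : FROZEN INTERFACE

Sub-architect: helper477.  Blueprint: `origin/helper477:coord/S55-REC-LOC.md`.

Goal of the sub-block (file `Glue.lean`):

  `localInvSystem_of (J : L.InvFamily) (descent) (up) (down) (refine) (res) (unram) (unif) :
      LocalInvSystem`

i.e. the absolute local invariant maps consumed by `ReciprocitySpec` are constructed from the
finite-level invariant maps of layer L.  Every statement below is a leaf: producers prove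
`theorem xxx : XxxSpec` (hypotheses = other Specs of layers L / Local / T are welcome:
`theorem xxx_of (h : L.SomeSpec) : XxxSpec`).

Notation: `K_V = fixedFld q V`, `E` an intermediate field of `ℚ̄_q / K_V`, finite Galois over `K_V`.
-/

set_option autoImplicit false

noncomputable section

namespace Fermat.Agent.S55.G.Rec.Loc

open groupCohomology

/-- **LOC-FD** the fixed field of an open subgroup is finite over `ℚ_q`, and an open subgroup is
the full fixing subgroup of its fixed field. -/
def OpenSpec : Prop :=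
  ∀ (q : ℕ) [Fact q.Prime] (V : Subgroup (PadicAlgCl q ≃ₐ[ℚ_[q]] PadicAlgCl q)),
    IsOpenL q V →
      FiniteDimensional ℚ_[q] (fixedFld q V) ∧ (fixedFld q V).fixingSubgroup = V

/-- **LOC-DESC** every level cocycle on an open `V` is the inflation of a cocycle of some finite
Galois level `E / K_V` (which can be chosen above any given finite extension `E₀`). -/
def DescentSpec : Prop :=
  ∀ (q : ℕ) [Fact q.Prime] (V : Subgroup (PadicAlgCl q ≃ₐ[ℚ_[q]] PadicAlgCl q)),
    IsOpenL q V →
    ∀ (c : ↥(levelCocycles₂ (lHom q V) (lModOn q V)))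
      (E₀ : IntermediateField (fixedFld q V) (PadicAlgCl q)),
      FiniteDimensional (fixedFld q V) E₀ →
      ∃ (E : IntermediateField (fixedFld q V) (PadicAlgCl q))
        (_ : FiniteDimensional (fixedFld q V) E) (_ : IsGalois (fixedFld q V) E)
        (f : cocycles₂ (L.unitsRep (fixedFld q V) E)), E₀ ≤ E ∧ IsAbsInflation q V E f c

/-- **LOC-UP** a finite-level coboundary inflates to a level coboundary. -/
def UpSpec : Prop :=
  ∀ (q : ℕ) [Fact q.Prime] (V : Subgroup (PadicAlgCl q ≃ₐ[ℚ_[q]] PadicAlgCl q)),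
    IsOpenL q V →
    ∀ (E : IntermediateField (fixedFld q V) (PadicAlgCl q))
      [FiniteDimensional (fixedFld q V) E] [IsGalois (fixedFld q V) E]
      (f : cocycles₂ (L.unitsRep (fixedFld q V) E))
      (c : ↥(levelCocycles₂ (lHom q V) (lModOn q V))),
      IsAbsInflation q V E f c → L.cls f = 0 →
        (c : ↥V × ↥V → lModOn q V) ∈ levelCoboundaries₂ (lHom q V) (lModOn q V)

/-- **LOC-DOWN** inflation to the absolute level is injective on classes (Hilbert 90 +
inflation–restriction at finite level). -/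
def DownSpec : Prop :=
  ∀ (q : ℕ) [Fact q.Prime] (V : Subgroup (PadicAlgCl q ≃ₐ[ℚ_[q]] PadicAlgCl q)),
    IsOpenL q V →
    ∀ (E : IntermediateField (fixedFld q V) (PadicAlgCl q))
      [FiniteDimensional (fixedFld q V) E] [IsGalois (fixedFld q V) E]
      (f : cocycles₂ (L.unitsRep (fixedFld q V) E))
      (c : ↥(levelCocycles₂ (lHom q V) (lModOn q V))),
      IsAbsInflation q V E f c →
        (c : ↥V × ↥V → lModOn q V) ∈ levelCoboundaries₂ (lHom q V) (lModOn q V) →
          L.cls f = 0

/-- **LOC-REF** refinement of the level: for `E ≤ E'` a cocycle `f` on `Gal(E/K_V)` has an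
inflation `f'` to `Gal(E'/K_V)`, with the same absolute inflation and the same invariant. -/
def RefineSpec : Prop :=
  ∀ (q : ℕ) [Fact q.Prime] (V : Subgroup (PadicAlgCl q ≃ₐ[ℚ_[q]] PadicAlgCl q))
    [L.IsLocalFld (fixedFld q V)]
    (E E' : IntermediateField (fixedFld q V) (PadicAlgCl q))
    [FiniteDimensional (fixedFld q V) E] [IsGalois (fixedFld q V) E]
    [FiniteDimensional (fixedFld q V) E'] [IsGalois (fixedFld q V) E'],
    E ≤ E' → ∀ f : cocycles₂ (L.unitsRep (fixedFld q V) E),
      ∃ f' : cocycles₂ (L.unitsRep (fixedFld q V) E'),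
        (∀ c : ↥(levelCocycles₂ (lHom q V) (lModOn q V)),
          IsAbsInflation q V E f c → IsAbsInflation q V E' f' c) ∧
        ∀ J : L.InvFamily,
          J.inv (fixedFld q V) E' (L.cls f') = J.inv (fixedFld q V) E (L.cls f)

/-- **LOC-RES** restriction to an open subgroup `V' ≤ V` multiplies the finite-level invariant
by the index. -/
def ResSpec : Prop :=
  ∀ (q : ℕ) [Fact q.Prime] (V V' : Subgroup (PadicAlgCl q ≃ₐ[ℚ_[q]] PadicAlgCl q))
    [L.IsLocalFld (fixedFld q V)] [L.IsLocalFld (fixedFld q V')] (h : V' ≤ V),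
    IsOpenL q V' →
    ∀ (c : ↥(levelCocycles₂ (lHom q V) (lModOn q V)))
      (c' : ↥(levelCocycles₂ (lHom q V') (lModOn q V'))),
      (∀ g k : ↥V', (c' : ↥V' × ↥V' → lModOn q V') (g, k) =
        (c : ↥V × ↥V → lModOn q V) (Subgroup.inclusion h g, Subgroup.inclusion h k)) →
      ∃ (E : IntermediateField (fixedFld q V) (PadicAlgCl q))
        (_ : FiniteDimensional (fixedFld q V) E) (_ : IsGalois (fixedFld q V) E)
        (f : cocycles₂ (L.unitsRep (fixedFld q V) E))
        (E' : IntermediateField (fixedFld q V') (PadicAlgCl q))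
        (_ : FiniteDimensional (fixedFld q V') E') (_ : IsGalois (fixedFld q V') E')
        (f' : cocycles₂ (L.unitsRep (fixedFld q V') E')),
        IsAbsInflation q V E f c ∧ IsAbsInflation q V' E' f' c' ∧
        ∀ J : L.InvFamily,
          J.inv (fixedFld q V') E' (L.cls f') =
            V'.relIndex V • J.inv (fixedFld q V) E (L.cls f)

/-- **LOC-UNR** unramified cocycles with unit values are level coboundaries
(`H²(Gal(K^{ur}/K), 𝒪^×) = 0`); hypotheses exactly as in `LocalInvSystem.inv_unram`. -/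
def UnramSpec : Prop :=
  ∀ (q : ℕ) [Fact q.Prime] (V : Subgroup (PadicAlgCl q ≃ₐ[ℚ_[q]] PadicAlgCl q)),
    IsOpenL q V → ∀ c : ↥(levelCocycles₂ (lHom q V) (lModOn q V)),
      (∀ g h : ↥V, ‖((Additive.toMul ((c : ↥V × ↥V → lModOn q V) (g, h)) :
        (PadicAlgCl q)ˣ) : PadicAlgCl q)‖ = 1) →
      (∀ g h i j : ↥V, IsInertial q (i : PadicAlgCl q ≃ₐ[ℚ_[q]] PadicAlgCl q) →
        IsInertial q (j : PadicAlgCl q ≃ₐ[ℚ_[q]] PadicAlgCl q) →
        (c : ↥V × ↥V → lModOn q V) (g * i, h * j) = (c : ↥V × ↥V → lModOn q V) (g, h)) →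
      (∀ g h i : ↥V, IsInertial q (i : PadicAlgCl q ≃ₐ[ℚ_[q]] PadicAlgCl q) →
        (lModOn q V).ρ i ((c : ↥V × ↥V → lModOn q V) (g, h)) =
          (c : ↥V × ↥V → lModOn q V) (g, h)) →
      (c : ↥V × ↥V → lModOn q V) ∈ levelCoboundaries₂ (lHom q V) (lModOn q V)

/-- **LOC-UNIF** normalisation: the cup of a uniformizer with an unramified character `χ` is
the inflation of a finite-level cocycle of invariant `χ(Frob) / n`; hypotheses exactly as in
`LocalInvSystem.inv_unif`. -/
def UnifSpec : Prop :=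
  ∀ (q : ℕ) [Fact q.Prime] (V : Subgroup (PadicAlgCl q ≃ₐ[ℚ_[q]] PadicAlgCl q))
    [L.IsLocalFld (fixedFld q V)],
    IsOpenL q V → ∀ (n : ℕ) [NeZero n] (χ : ↥V →* Multiplicative (ZMod n)),
      (∀ τ : ↥V, IsInertial q (τ : PadicAlgCl q ≃ₐ[ℚ_[q]] PadicAlgCl q) → χ τ = 1) →
      ∀ (φ : PadicAlgCl q ≃ₐ[ℚ_[q]] PadicAlgCl q) (hφ : IsFrobenius q V φ),
      ∀ π : (PadicAlgCl q)ˣ, IsUniformizer q V (π : PadicAlgCl q) →
      ∀ c : ↥(levelCocycles₂ (lHom q V) (lModOn q V)),
        IsCupChar (toLMod q V π) χ (c : ↥V × ↥V → lModOn q V) →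
        ∀ J : L.InvFamily,
          ∃ (E : IntermediateField (fixedFld q V) (PadicAlgCl q))
            (_ : FiniteDimensional (fixedFld q V) E) (_ : IsGalois (fixedFld q V) E)
            (f : cocycles₂ (L.unitsRep (fixedFld q V) E)),
            IsAbsInflation q V E f c ∧
            J.inv (fixedFld q V) E (L.cls f) =
              (((((Multiplicative.toAdd (χ ⟨φ, hφ.1⟩)).val : ℚ) / (n : ℚ) : ℚ)) :
                AddCircle (1 : ℚ))

end Fermat.Agent.S55.G.Rec.Loc
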