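import Fermat.Agent.S55.G.Rec.Loc.H483.InertiaSpec
import Fermat.Agent.S55.Local.H294.UR3Val

/-!
# S55 / layer G / block REC / sub-block LOC : leaf LOC-UNR (`UnramSpec`)   (helper294)

`unram_of : OpenSpec → DescentSpec → UpSpec → H483.NormIntegralSpec → H483.UnramLevelSpec →
  Local.UnramUnitsH2Statement → UnramSpec`.

Proof.  Let `c` be a level cocycle on the open subgroup `V` with unit values, right-invariant
under inertial elements and with values fixed by the inertial elements of `V`.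

* `DescentSpec`: `c` is the inflation of a cocycle on a finite Galois level `E / K_V`;
* `H483.UnramLevelSpec`: inside `E` there is a finite Galois unramified level `E₀ / K_V` such that
  the kernel of `V → Gal(E₀ / K_V)` is `{inertial} * ker (V → Gal(E / K_V))`;
* hence `c` is constant on the cosets of `ker (V → Gal(E₀ / K_V))`, and its values are fixed by
  this kernel, i.e. lie in `E₀` (Galois correspondence): `c` is the inflation of a cocycle `f₀`
  on `Gal(E₀ / K_V)` with values in the units of the ring of integers of `E₀`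
  (`H483.NormIntegralSpec`);
* `Local.UnramUnitsH2Statement` (proved in `Local/H715/Closed.lean`): `f₀` is a coboundary;
* `UpSpec`: `c` is a level coboundary.
-/

set_option autoImplicit false
set_option linter.style.haveILetI false
set_option linter.unusedSectionVars false

noncomputable section

namespace Fermat.Agent.S55.G.Rec.Loc.H294

open groupCohomology Fermat.Agent.S55.G.Rec Fermat.Agent.S55.G.Rec.Loc

variable {q : ℕ} [Fact q.Prime]

/-- `ℚ̄_q / ℚ_q` is normal. -/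
lemma normal_padicAlgCl (q : ℕ) [Fact q.Prime] : Normal ℚ_[q] (PadicAlgCl q) := by
  unfold PadicAlgCl; infer_instance

/-- `ℚ̄_q / ℚ_q` is Galois. -/
lemma isGalois_padicAlgCl (q : ℕ) [Fact q.Prime] : IsGalois ℚ_[q] (PadicAlgCl q) := by
  haveI : Algebra.IsAlgebraic ℚ_[q] (PadicAlgCl q) := by
    unfold PadicAlgCl; infer_instance
  haveI : Algebra.IsSeparable ℚ_[q] (PadicAlgCl q) :=
    Algebra.IsAlgebraic.isSeparable_of_perfectField
  haveI : Normal ℚ_[q] (PadicAlgCl q) := normal_padicAlgCl q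
  exact ⟨⟩

/-- If `V` is the full fixing subgroup of its fixed field, `V → Gal(ℚ̄_q / K_V)` is onto. -/
lemma toAbsGal_surjective (V : Subgroup (PadicAlgCl q ≃ₐ[ℚ_[q]] PadicAlgCl q))
    (hfix : (fixedFld q V).fixingSubgroup = V) : Function.Surjective (toAbsGal q V) := by
  intro σ
  have hmem : (((IntermediateField.fixingSubgroupEquiv (fixedFld q V)).symm σ :
      ↥(fixedFld q V).fixingSubgroup) : PadicAlgCl q ≃ₐ[ℚ_[q]] PadicAlgCl q) ∈ V := by
    exact hfix.le ((IntermediateField.fixingSubgroupEquiv (fixedFld q V)).symm σ).2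
  refine ⟨⟨_, hmem⟩, ?_⟩
  ext x
  rfl

/-- If `V` is the full fixing subgroup of its fixed field, `V → Gal(E / K_V)` is onto. -/
lemma resHom_surjective (V : Subgroup (PadicAlgCl q ≃ₐ[ℚ_[q]] PadicAlgCl q))
    (hfix : (fixedFld q V).fixingSubgroup = V)
    (E : IntermediateField (fixedFld q V) (PadicAlgCl q)) [Normal (fixedFld q V) E] :
    Function.Surjective (resHom q V E) := by
  haveI : Normal ℚ_[q] (PadicAlgCl q) := normal_padicAlgCl q
  haveI : Normal (fixedFld q V) (PadicAlgCl q) :=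
    Normal.tower_top_of_normal ℚ_[q] (fixedFld q V) (PadicAlgCl q)
  exact (AlgEquiv.restrictNormalHom_surjective (PadicAlgCl q)).comp (toAbsGal_surjective V hfix)

/-- `w ∈ V` is trivial on `E` iff it fixes `E` pointwise. -/
lemma resHom_eq_one_iff (V : Subgroup (PadicAlgCl q ≃ₐ[ℚ_[q]] PadicAlgCl q))
    (E : IntermediateField (fixedFld q V) (PadicAlgCl q)) [Normal (fixedFld q V) E] (w : ↥V) :
    resHom q V E w = 1 ↔
      ∀ x : PadicAlgCl q, x ∈ E → (w : PadicAlgCl q ≃ₐ[ℚ_[q]] PadicAlgCl q) x = x := by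
  constructor
  · intro h x hx
    have := resHom_apply_coe q V E w ⟨x, hx⟩
    rw [h] at this
    exact this.symm
  · intro h
    ext x
    rw [resHom_apply_coe]
    exact h _ x.2

/-- An element of `ℚ̄_q` fixed by the kernel of `V → Gal(E₀ / K_V)` lies in `E₀`. -/
lemma mem_of_fixed (V : Subgroup (PadicAlgCl q ≃ₐ[ℚ_[q]] PadicAlgCl q))
    (hfix : (fixedFld q V).fixingSubgroup = V)
    (E₀ : IntermediateField (fixedFld q V) (PadicAlgCl q)) [Normal (fixedFld q V) E₀]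
    (x : PadicAlgCl q)
    (hx : ∀ w : ↥V, resHom q V E₀ w = 1 →
      (w : PadicAlgCl q ≃ₐ[ℚ_[q]] PadicAlgCl q) x = x) : x ∈ E₀ := by
  haveI : IsGalois ℚ_[q] (PadicAlgCl q) := isGalois_padicAlgCl q
  haveI : IsGalois (fixedFld q V) (PadicAlgCl q) :=
    IsGalois.tower_top_of_isGalois ℚ_[q] (fixedFld q V) (PadicAlgCl q)
  rw [← InfiniteGalois.fixedField_fixingSubgroup E₀, IntermediateField.mem_fixedField_iff]
  intro σ hσ
  obtain ⟨w, rfl⟩ := toAbsGal_surjective V hfix σ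
  rw [toAbsGal_apply]
  refine hx w ((resHom_eq_one_iff V E₀ w).2 fun y hy => ?_)
  have := (IntermediateField.mem_fixingSubgroup_iff E₀ (toAbsGal q V w)).1 hσ y hy
  simpa using this

/-- Descent of a cochain which is constant on the cosets of `ker (V → Gal(E₀ / K_V))` and has
values in `E₀`. -/
lemma exists_descent (V : Subgroup (PadicAlgCl q ≃ₐ[ℚ_[q]] PadicAlgCl q))
    (hfix : (fixedFld q V).fixingSubgroup = V)
    (E₀ : IntermediateField (fixedFld q V) (PadicAlgCl q)) [Normal (fixedFld q V) E₀]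
    (C : ↥V × ↥V → lModOn q V)
    (hlev : ∀ g h w w' : ↥V, resHom q V E₀ w = 1 → resHom q V E₀ w' = 1 →
      C (g * w, h * w') = C (g, h))
    (hmem : ∀ g h : ↥V,
      ((Additive.toMul (C (g, h)) : (PadicAlgCl q)ˣ) : PadicAlgCl q) ∈ E₀) :
    ∃ f₀ : (E₀ ≃ₐ[fixedFld q V] E₀) × (E₀ ≃ₐ[fixedFld q V] E₀) → (↥E₀)ˣ,
      ∀ g h : ↥V, ((f₀ (resHom q V E₀ g, resHom q V E₀ h) : (↥E₀)ˣ) : PadicAlgCl q) =
        ((Additive.toMul (C (g, h)) : (PadicAlgCl q)ˣ) : PadicAlgCl q) := by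
  have hsurj := resHom_surjective V hfix E₀
  choose s hs using hsurj
  refine ⟨fun p => Units.mk0 ⟨((Additive.toMul (C (s p.1, s p.2)) : (PadicAlgCl q)ˣ) :
      PadicAlgCl q), hmem (s p.1) (s p.2)⟩
      (fun h0 => Units.ne_zero (Additive.toMul (C (s p.1, s p.2)) : (PadicAlgCl q)ˣ)
        (congrArg Subtype.val h0)), fun g h => ?_⟩
  show ((Additive.toMul (C (s (resHom q V E₀ g), s (resHom q V E₀ h))) :
      (PadicAlgCl q)ˣ) : PadicAlgCl q) = _
  have e1 : s (resHom q V E₀ g) = g * (g⁻¹ * s (resHom q V E₀ g)) := by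
    rw [mul_inv_cancel_left]
  have e2 : s (resHom q V E₀ h) = h * (h⁻¹ * s (resHom q V E₀ h)) := by
    rw [mul_inv_cancel_left]
  have k1 : resHom q V E₀ (g⁻¹ * s (resHom q V E₀ g)) = 1 := by
    rw [map_mul, hs, map_inv, inv_mul_cancel]
  have k2 : resHom q V E₀ (h⁻¹ * s (resHom q V E₀ h)) = 1 := by
    rw [map_mul, hs, map_inv, inv_mul_cancel]
  rw [e1, e2, hlev g h _ _ k1 k2]

/-- The descended cochain of a cocycle satisfies the (multiplicative) cocycle identity. -/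
lemma descent_cocycle (V : Subgroup (PadicAlgCl q ≃ₐ[ℚ_[q]] PadicAlgCl q))
    (hfix : (fixedFld q V).fixingSubgroup = V)
    (E₀ : IntermediateField (fixedFld q V) (PadicAlgCl q)) [Normal (fixedFld q V) E₀]
    (C : ↥V × ↥V → lModOn q V) (hC : C ∈ cocycles₂ (lModOn q V))
    (f₀ : (E₀ ≃ₐ[fixedFld q V] E₀) × (E₀ ≃ₐ[fixedFld q V] E₀) → (↥E₀)ˣ)
    (hf₀ : ∀ g h : ↥V, ((f₀ (resHom q V E₀ g, resHom q V E₀ h) : (↥E₀)ˣ) : PadicAlgCl q) =
        ((Additive.toMul (C (g, h)) : (PadicAlgCl q)ˣ) : PadicAlgCl q))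
    (a b d : E₀ ≃ₐ[fixedFld q V] E₀) :
    ((f₀ (a * b, d) : (↥E₀)ˣ) : ↥E₀) * ((f₀ (a, b) : (↥E₀)ˣ) : ↥E₀) =
      a ((f₀ (b, d) : (↥E₀)ˣ) : ↥E₀) * ((f₀ (a, b * d) : (↥E₀)ˣ) : ↥E₀) := by
  obtain ⟨g, rfl⟩ := resHom_surjective V hfix E₀ a
  obtain ⟨h, rfl⟩ := resHom_surjective V hfix E₀ b
  obtain ⟨j, rfl⟩ := resHom_surjective V hfix E₀ d
  have hc := (mem_cocycles₂_iff C).1 hC g h j
  have hc' : ((Additive.toMul (C (g * h, j)) : (PadicAlgCl q)ˣ) : PadicAlgCl q) *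
      ((Additive.toMul (C (g, h)) : (PadicAlgCl q)ˣ) : PadicAlgCl q) =
      (g : PadicAlgCl q ≃ₐ[ℚ_[q]] PadicAlgCl q)
        ((Additive.toMul (C (h, j)) : (PadicAlgCl q)ˣ) : PadicAlgCl q) *
      ((Additive.toMul (C (g, h * j)) : (PadicAlgCl q)ˣ) : PadicAlgCl q) :=
    congrArg (fun x : lModOn q V =>
      ((Additive.toMul x : (PadicAlgCl q)ˣ) : PadicAlgCl q)) hc
  apply Subtype.ext
  show ((f₀ (resHom q V E₀ g * resHom q V E₀ h, resHom q V E₀ j) : (↥E₀)ˣ) : PadicAlgCl q) *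
      ((f₀ (resHom q V E₀ g, resHom q V E₀ h) : (↥E₀)ˣ) : PadicAlgCl q) =
    ((resHom q V E₀ g ((f₀ (resHom q V E₀ h, resHom q V E₀ j) : (↥E₀)ˣ) : ↥E₀) : ↥E₀) :
      PadicAlgCl q) *
      ((f₀ (resHom q V E₀ g, resHom q V E₀ h * resHom q V E₀ j) : (↥E₀)ˣ) : PadicAlgCl q)
  rw [← map_mul, ← map_mul, hf₀, hf₀, hf₀, resHom_apply_coe, hf₀]
  exact hc'

section Abstract

/-- Abstract core: a unit-valued multiplicative 2-cocycle of an unramified extension, given by its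
values in the field, is a coboundary; packaged as an element of `cocycles₂ (L.unitsRep K N)` with
trivial class. -/
lemma exists_cocycle_cls_eq_zero (hUU : Fermat.Agent.S55.Local.UnramUnitsH2Statement)
    (A F : Type) [CommRing A] [IsDomain A] [IsDiscreteValuationRing A]
    [IsAdicComplete (IsLocalRing.maximalIdeal A) A] [Finite (IsLocalRing.ResidueField A)]
    [Field F] [CharZero F] [Algebra A F] [IsFractionRing A F]
    (K : Type) [Field K] [Algebra F K] [FiniteDimensional F K]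
    (N : Type) [Field N] [Algebra F N] [Algebra K N] [IsScalarTower F K N]
    [FiniteDimensional K N] [IsGalois K N]
    (hunr : Fermat.Agent.S55.Local.IsUnram A F N K)
    (f₀ : (N ≃ₐ[K] N) × (N ≃ₐ[K] N) → Nˣ)
    (hcoc : ∀ a b d : N ≃ₐ[K] N, ((f₀ (a * b, d) : Nˣ) : N) * ((f₀ (a, b) : Nˣ) : N) =
      a ((f₀ (b, d) : Nˣ) : N) * ((f₀ (a, b * d) : Nˣ) : N))
    (hint : ∀ p, Fermat.Agent.S55.Local.IsInt A F N ((f₀ p : Nˣ) : N) ∧
      Fermat.Agent.S55.Local.IsInt A F N (((f₀ p)⁻¹ : Nˣ) : N)) :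
    ∃ f : cocycles₂ (L.unitsRep K N),
      (∀ p, (Additive.toMul ((f : (N ≃ₐ[K] N) × (N ≃ₐ[K] N) → L.unitsRep K N) p) : Nˣ) = f₀ p) ∧
        L.cls f = 0 := by
  have hcoc' : IsMulCocycle₂ f₀ := by
    intro a b d
    apply Units.ext
    exact hcoc a b d
  obtain ⟨x, -, hx⟩ := hUU A F K N hunr f₀ hcoc' hint
  refine ⟨cocyclesOfIsMulCocycle₂ hcoc', fun p => rfl, ?_⟩
  exact (H2π_eq_zero_iff (A := L.unitsRep K N) (cocyclesOfIsMulCocycle₂ hcoc')).2
    (coboundariesOfIsMulCoboundary₂ (f := f₀) ⟨x, hx⟩).2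

end Abstract

/-- The values of the descended cochain are units of the ring of integers. -/
lemma descent_isInt (hNI : H483.NormIntegralSpec)
    (V : Subgroup (PadicAlgCl q ≃ₐ[ℚ_[q]] PadicAlgCl q))
    (E₀ : IntermediateField (fixedFld q V) (PadicAlgCl q)) (u : (↥E₀)ˣ)
    (hu : ‖((u : ↥E₀) : PadicAlgCl q)‖ = 1) :
    Fermat.Agent.S55.Local.IsInt ℤ_[q] ℚ_[q] ↥E₀ ((u : (↥E₀)ˣ) : ↥E₀) ∧
      Fermat.Agent.S55.Local.IsInt ℤ_[q] ℚ_[q] ↥E₀ (((u⁻¹ : (↥E₀)ˣ)) : ↥E₀) := by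
  haveI : IsScalarTower ℚ_[q] ↥E₀ (PadicAlgCl q) := IsScalarTower.of_algebraMap_eq fun _ => rfl
  have key : ∀ y : ↥E₀, ‖(y : PadicAlgCl q)‖ ≤ 1 →
      Fermat.Agent.S55.Local.IsInt ℤ_[q] ℚ_[q] ↥E₀ y := by
    intro y hy
    have h := (hNI q (y : PadicAlgCl q)).1 hy
    exact (Fermat.Agent.S55.Local.H294.isInt_algebraMap_iff (A := ℤ_[q]) (F := ℚ_[q])
      (L := PadicAlgCl q) (K := ↥E₀) y).1 h
  refine ⟨key _ hu.le, key _ ?_⟩
  have h1 : (((u⁻¹ : (↥E₀)ˣ) : ↥E₀) : PadicAlgCl q) = (((u : ↥E₀) : PadicAlgCl q))⁻¹ := by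
    rw [Units.val_inv_eq_inv_val]
    rfl
  rw [h1, norm_inv, hu, inv_one]

/-- A cochain inflated from the level `E` is constant on the cosets of `ker (V → Gal(E/K_V))`. -/
lemma levelConst_of_isAbsInflation (V : Subgroup (PadicAlgCl q ≃ₐ[ℚ_[q]] PadicAlgCl q))
    (E : IntermediateField (fixedFld q V) (PadicAlgCl q)) [Normal (fixedFld q V) E]
    (f : cocycles₂ (L.unitsRep (fixedFld q V) E))
    (c : ↥(levelCocycles₂ (lHom q V) (lModOn q V))) (hcf : IsAbsInflation q V E f c)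
    (g h n n' : ↥V) (hn : resHom q V E n = 1) (hn' : resHom q V E n' = 1) :
    (c : ↥V × ↥V → lModOn q V) (g * n, h * n') = (c : ↥V × ↥V → lModOn q V) (g, h) := by
  have e1 : resHom q V E (g * n) = resHom q V E g := by
    rw [map_mul (resHom q V E) g n, hn, mul_one]
  have e2 : resHom q V E (h * n') = resHom q V E h := by
    rw [map_mul (resHom q V E) h n', hn', mul_one]
  have h1 : (c : ↥V × ↥V → lModOn q V) (g * n, h * n') = inflCochain₂ q V E
      (f : (E ≃ₐ[fixedFld q V] E) × (E ≃ₐ[fixedFld q V] E) → L.unitsRep (fixedFld q V) E)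
      (g * n, h * n') := congrFun hcf _
  have h2 : (c : ↥V × ↥V → lModOn q V) (g, h) = inflCochain₂ q V E
      (f : (E ≃ₐ[fixedFld q V] E) × (E ≃ₐ[fixedFld q V] E) → L.unitsRep (fixedFld q V) E)
      (g, h) := congrFun hcf _
  rw [h1, h2]
  show Additive.ofMul (unitsIncl q V E (Additive.toMul
      ((f : (E ≃ₐ[fixedFld q V] E) × (E ≃ₐ[fixedFld q V] E) → L.unitsRep (fixedFld q V) E)
        (resHom q V E (g * n), resHom q V E (h * n'))))) =
    Additive.ofMul (unitsIncl q V E (Additive.toMul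
      ((f : (E ≃ₐ[fixedFld q V] E) × (E ≃ₐ[fixedFld q V] E) → L.unitsRep (fixedFld q V) E)
        (resHom q V E g, resHom q V E h))))
  rw [e1, e2]

/-- The values of a cochain inflated from the level `E` lie in `E`. -/
lemma val_mem_of_isAbsInflation (V : Subgroup (PadicAlgCl q ≃ₐ[ℚ_[q]] PadicAlgCl q))
    (E : IntermediateField (fixedFld q V) (PadicAlgCl q)) [Normal (fixedFld q V) E]
    (f : cocycles₂ (L.unitsRep (fixedFld q V) E))
    (c : ↥(levelCocycles₂ (lHom q V) (lModOn q V))) (hcf : IsAbsInflation q V E f c)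
    (g h : ↥V) :
    ((Additive.toMul ((c : ↥V × ↥V → lModOn q V) (g, h)) : (PadicAlgCl q)ˣ) : PadicAlgCl q) ∈ E := by
  have h2 : (c : ↥V × ↥V → lModOn q V) (g, h) = inflCochain₂ q V E
      (f : (E ≃ₐ[fixedFld q V] E) × (E ≃ₐ[fixedFld q V] E) → L.unitsRep (fixedFld q V) E)
      (g, h) := congrFun hcf _
  rw [h2]
  exact SetLike.coe_mem _

/-- If `c` restricted along `V → Gal(E₀/K_V)` is given by the values of the cocycle `f'`, then `c`
is the inflation of `f'`. -/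
lemma isAbsInflation_of (V : Subgroup (PadicAlgCl q ≃ₐ[ℚ_[q]] PadicAlgCl q))
    (E₀ : IntermediateField (fixedFld q V) (PadicAlgCl q)) [Normal (fixedFld q V) E₀]
    (f' : cocycles₂ (L.unitsRep (fixedFld q V) E₀))
    (c : ↥(levelCocycles₂ (lHom q V) (lModOn q V)))
    (h : ∀ g h : ↥V, (((Additive.toMul ((f' : (E₀ ≃ₐ[fixedFld q V] E₀) × (E₀ ≃ₐ[fixedFld q V] E₀) →
      L.unitsRep (fixedFld q V) E₀) (resHom q V E₀ g, resHom q V E₀ h)) : (↥E₀)ˣ) : ↥E₀) :
        PadicAlgCl q) =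
      ((Additive.toMul ((c : ↥V × ↥V → lModOn q V) (g, h)) : (PadicAlgCl q)ˣ) : PadicAlgCl q)) :
    IsAbsInflation q V E₀ f' c := by
  funext p
  apply Additive.toMul.injective
  apply Units.ext
  exact (h p.1 p.2).symm

/-- **LOC-UNR** from the other leaves of the sub-block, the inertia toolkit of helper483 and the
vanishing of `H²(Gal(L/K), U_L)` for unramified `L/K` (layer `Local`). -/
theorem unram_of (hO : OpenSpec) (hD : DescentSpec) (hUp : UpSpec)
    (hNI : H483.NormIntegralSpec) (hUL : H483.UnramLevelSpec)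
    (hUU : Fermat.Agent.S55.Local.UnramUnitsH2Statement) : UnramSpec := by
  intro q _ V hV c h1 h2 h3
  obtain ⟨hfin, hfix⟩ := hO q V hV
  obtain ⟨E, hEfin, hEgal, f, -, hcf⟩ := hD q V hV c ⊥ inferInstance
  haveI := hfin
  haveI := hEfin
  haveI := hEgal
  obtain ⟨E₀, hE₀fin, hE₀gal, hE₀E, hunr, hker⟩ := hUL q V hV E
  haveI := hE₀fin
  haveI := hE₀gal
  -- level constancy at `E₀`
  have hlevE₀ : ∀ g h w w' : ↥V, resHom q V E₀ w = 1 → resHom q V E₀ w' = 1 →
      (c : ↥V × ↥V → lModOn q V) (g * w, h * w') = (c : ↥V × ↥V → lModOn q V) (g, h) := by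
    intro g h w w' hw hw'
    obtain ⟨i, n, hi, hn, rfl⟩ := (hker w).1 hw
    obtain ⟨i', n', hi', hn', rfl⟩ := (hker w').1 hw'
    have e := levelConst_of_isAbsInflation V E f c hcf (g * i) (h * i') n n' hn hn'
    rw [mul_assoc, mul_assoc] at e
    exact e.trans (h2 g h i i' hi hi')
  -- the values lie in `E₀`
  have hmem : ∀ g h : ↥V, ((Additive.toMul ((c : ↥V × ↥V → lModOn q V) (g, h)) :
      (PadicAlgCl q)ˣ) : PadicAlgCl q) ∈ E₀ := by
    intro g h
    refine mem_of_fixed V hfix E₀ _ fun w hw => ?_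
    obtain ⟨i, n, hi, hn, rfl⟩ := (hker w).1 hw
    have hnx := (resHom_eq_one_iff V E n).1 hn _ (val_mem_of_isAbsInflation V E f c hcf g h)
    have hix := congrArg (fun x : lModOn q V =>
      ((Additive.toMul x : (PadicAlgCl q)ˣ) : PadicAlgCl q)) (h3 g h i hi)
    exact (congrArg (i : PadicAlgCl q ≃ₐ[ℚ_[q]] PadicAlgCl q) hnx).trans hix
  -- descent to `Gal(E₀ / K_V)`
  obtain ⟨f₀, hf₀⟩ := exists_descent V hfix E₀ _ hlevE₀ hmem
  have hcoc := descent_cocycle V hfix E₀ _ c.2.1 f₀ hf₀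
  have hint : ∀ p, Fermat.Agent.S55.Local.IsInt ℤ_[q] ℚ_[q] ↥E₀ ((f₀ p : (↥E₀)ˣ) : ↥E₀) ∧
      Fermat.Agent.S55.Local.IsInt ℤ_[q] ℚ_[q] ↥E₀ (((f₀ p)⁻¹ : (↥E₀)ˣ) : ↥E₀) := by
    rintro ⟨a, b⟩
    obtain ⟨g, rfl⟩ := resHom_surjective V hfix E₀ a
    obtain ⟨h, rfl⟩ := resHom_surjective V hfix E₀ b
    exact descent_isInt hNI V E₀ _ ((congrArg norm (hf₀ g h)).trans (h1 g h))
  -- the descended cocycle is a coboundary
  obtain ⟨f', hf', hcls⟩ := exists_cocycle_cls_eq_zero hUU ℤ_[q] ℚ_[q] (fixedFld q V) ↥E₀ hunr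
    f₀ hcoc hint
  -- conclusion
  refine hUp q V hV E₀ f' c (isAbsInflation_of V E₀ f' c fun g h => ?_) hcls
  rw [hf' (resHom q V E₀ g, resHom q V E₀ h)]
  exact hf₀ g h

end Fermat.Agent.S55.G.Rec.Loc.H294

end
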